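import Mathlib

/-!
# S35, leaf (G1'), ABSTRACT PART : reductions and norms at the two valuations

`F₀ ⊂ F` two fields with two embeddings `α, φ : F₀ → F` (level `M'` into level `q M'`), `V₀` a
valuation ring of `F₀` (Gauss), `V₁, V₂` the two valuation rings of `F` above it, `s₀, s` ring
endomorphisms of `F₀, F` (the action of a Frobenius lift at `q`), `Nα, Nφ : F → F₀` the two norms.

`S35gHyp` lists what the concrete side provides (all in the congruence shapes of the Program S tree) :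
residues (`κ(V₁) = ᾱ κ₀`, `κ(V₂) = φ̄ κ₀`), the Frobenius congruences `φ(s₀ h) ≡ (α h)^q mod 𝔪₁`,
`α(s₀ h) ≡ (φ h)^q mod 𝔪₂`, norm/residue compatibility (NR) for `α` and for `φ`, equivariance.

* `s35g_concl₁`, `s35g_concl₂` (RED + CONCL, division free, for EVERY `f ∈ V₁ ∩ V₂`) :
  `s(s f) · α(Nα f) ≡ f · α(s₀ (Nφ f)) mod 𝔪₁`,  `s(s f) · φ(Nφ f) ≡ f · φ(s₀ (Nα f)) mod 𝔪₂`.
* `s35g_princ₁`, `s35g_princ₂` (PRINC) : if `Nα f = c hⁿ`, `Nφ f = c' h'ⁿ` with `c, c', h, h'` units of `V₀`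
  then `s(s f) · α(c) · α(h)ⁿ ≡ f · α(s₀ c') · α(s₀ h')ⁿ mod 𝔪₁` and the mirror at `V₂`.
* `s35g_normalise` (NORMALISE) : weak approximation gives `U ∈ F` with
  `s(s f) · α(c) ≡ f · Uⁿ · α(s₀ c') mod 𝔪₁`, `s(s f) · φ(c') ≡ f · Uⁿ · φ(s₀ c) mod 𝔪₂`,
  i.e. `s²f / (f Uⁿ)` is congruent to the CONSTANTS `s₀c'/c`, `s₀c/c'` at `V₁`, `V₂`.

Mathlib only.  Prefix `s35g_` / `S35g`.
-/

set_option autoImplicit false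
set_option linter.unusedSectionVars false

noncomputable section

namespace Fermat.Agent.S35

/-! ### Congruences modulo the maximal ideal of a valuation subring -/

section Cong

variable {K : Type*} [Field K]

/-- `x ≡ y` modulo the maximal ideal of `V`, for `x, y ∈ V` -/
def S35gCong (V : ValuationSubring K) (x y : K) : Prop :=
  x ∈ V ∧ y ∈ V ∧ x - y ∈ V.nonunits

variable {V : ValuationSubring K}

theorem s35g_mul_mem_nonunits {a b : K} (ha : a ∈ V) (hb : b ∈ V.nonunits) :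
    a * b ∈ V.nonunits := by
  rw [ValuationSubring.mem_nonunits_iff] at hb ⊢
  rw [map_mul]
  exact lt_of_le_of_lt (mul_le_of_le_one_left' ((V.valuation_le_one_iff a).mpr ha)) hb

theorem S35gCong.refl {x : K} (hx : x ∈ V) : S35gCong V x x :=
  ⟨hx, hx, by rw [sub_self]; exact zero_mem _⟩

theorem S35gCong.symm {x y : K} (h : S35gCong V x y) : S35gCong V y x :=
  ⟨h.2.1, h.1, by rw [← neg_sub]; exact neg_mem h.2.2⟩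

theorem S35gCong.trans {x y z : K} (h : S35gCong V x y) (h' : S35gCong V y z) :
    S35gCong V x z :=
  ⟨h.1, h'.2.1, by
    have := add_mem h.2.2 h'.2.2
    rwa [sub_add_sub_cancel] at this⟩

theorem S35gCong.mul {x x' y y' : K} (h : S35gCong V x x') (h' : S35gCong V y y') :
    S35gCong V (x * y) (x' * y') :=
  ⟨V.mul_mem _ _ h.1 h'.1, V.mul_mem _ _ h.2.1 h'.2.1, by
    have h1 : x * y - x' * y' = y * (x - x') + x' * (y - y') := by ring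
    rw [h1]
    exact add_mem (s35g_mul_mem_nonunits h'.1 h.2.2) (s35g_mul_mem_nonunits h.2.1 h'.2.2)⟩

theorem S35gCong.pow {x x' : K} (h : S35gCong V x x') (n : ℕ) : S35gCong V (x ^ n) (x' ^ n) := by
  induction n with
  | zero => simpa using S35gCong.refl (V := V) (x := 1) V.one_mem
  | succ n ih => simpa [pow_succ] using ih.mul h

theorem S35gCong.of_sub {x y : K} (hx : x ∈ V) (hxy : x - y ∈ V.nonunits) : S35gCong V x y :=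
  ⟨hx, by
    have h1 : y = x - (x - y) := by ring
    rw [h1]
    exact sub_mem hx (V.nonunits_le hxy), hxy⟩

/-- transport along a ring homomorphism mapping `V` into `V'` and `𝔪_V` into `𝔪_{V'}` -/
theorem S35gCong.map {K' : Type*} [Field K'] {V' : ValuationSubring K'} (f : K →+* K')
    (hf : ∀ x ∈ V, f x ∈ V') (hf' : ∀ x ∈ V.nonunits, f x ∈ V'.nonunits) {x y : K}
    (h : S35gCong V x y) : S35gCong V' (f x) (f y) :=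
  ⟨hf _ h.1, hf _ h.2.1, by rw [← map_sub]; exact hf' _ h.2.2⟩

end Cong

/-! ### The hypotheses -/

variable {F₀ F : Type*} [Field F₀] [Field F]

/-- THE HYPOTHESES OF (G1'), abstract form. -/
structure S35gHyp (α φ : F₀ →+* F) (V₀ : ValuationSubring F₀) (V₁ V₂ : ValuationSubring F)
    (s₀ : F₀ →+* F₀) (s : F →+* F) (Nα Nφ : F → F₀) (q : ℕ) : Prop where
  /-- `α V₀ ⊆ V₁` -/
  α_mem₁ : ∀ x ∈ V₀, α x ∈ V₁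
  /-- `α 𝔪₀ ⊆ 𝔪₁` -/
  α_max₁ : ∀ x ∈ V₀.nonunits, α x ∈ V₁.nonunits
  /-- `φ V₀ ⊆ V₂` -/
  φ_mem₂ : ∀ x ∈ V₀, φ x ∈ V₂
  /-- `φ 𝔪₀ ⊆ 𝔪₂` -/
  φ_max₂ : ∀ x ∈ V₀.nonunits, φ x ∈ V₂.nonunits
  /-- `κ(V₁) = ᾱ κ(V₀)` -/
  res₁ : ∀ x ∈ V₁, ∃ r ∈ V₀, x - α r ∈ V₁.nonunits
  /-- `κ(V₂) = φ̄ κ(V₀)` -/
  res₂ : ∀ x ∈ V₂, ∃ r ∈ V₀, x - φ r ∈ V₂.nonunits
  /-- `φ (s₀ h) ≡ (α h)^q` modulo `𝔪₁` -/
  frob₁ : ∀ h ∈ V₀, φ (s₀ h) - α h ^ q ∈ V₁.nonunits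
  /-- `α (s₀ h) ≡ (φ h)^q` modulo `𝔪₂` -/
  frob₂ : ∀ h ∈ V₀, α (s₀ h) - φ h ^ q ∈ V₂.nonunits
  /-- (NR) for `α` -/
  nrα : ∀ g ∈ V₁, g ∈ V₂ → ∀ a₁ ∈ V₀, ∀ a₂ ∈ V₀, g - α a₁ ∈ V₁.nonunits →
    g ^ q - α a₂ ∈ V₂.nonunits → Nα g - a₁ * a₂ ∈ V₀.nonunits
  /-- (NR) for `φ` -/
  nrφ : ∀ g ∈ V₁, g ∈ V₂ → ∀ b₁ ∈ V₀, ∀ b₂ ∈ V₀, g ^ q - φ b₁ ∈ V₁.nonunits →
    g - φ b₂ ∈ V₂.nonunits → Nφ g - b₁ * b₂ ∈ V₀.nonunits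
  /-- `s ∘ α = α ∘ s₀` -/
  s_α : ∀ x, s (α x) = α (s₀ x)
  /-- `s ∘ φ = φ ∘ s₀` -/
  s_φ : ∀ x, s (φ x) = φ (s₀ x)
  /-- `s V₁ ⊆ V₁` -/
  s_mem₁ : ∀ x ∈ V₁, s x ∈ V₁
  /-- `s 𝔪₁ ⊆ 𝔪₁` -/
  s_max₁ : ∀ x ∈ V₁.nonunits, s x ∈ V₁.nonunits
  /-- `s V₂ ⊆ V₂` -/
  s_mem₂ : ∀ x ∈ V₂, s x ∈ V₂
  /-- `s 𝔪₂ ⊆ 𝔪₂` -/
  s_max₂ : ∀ x ∈ V₂.nonunits, s x ∈ V₂.nonunits
  /-- `s₀ V₀ ⊆ V₀` -/
  s₀_mem : ∀ x ∈ V₀, s₀ x ∈ V₀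
  /-- `s₀ 𝔪₀ ⊆ 𝔪₀` -/
  s₀_max : ∀ x ∈ V₀.nonunits, s₀ x ∈ V₀.nonunits

variable {α φ : F₀ →+* F} {V₀ : ValuationSubring F₀} {V₁ V₂ : ValuationSubring F}
  {s₀ : F₀ →+* F₀} {s : F →+* F} {Nα Nφ : F → F₀} {q : ℕ}

/-- the residue data of `f ∈ V₁ ∩ V₂` : `a, b ∈ V₀` with `f ≡ α a mod 𝔪₁`, `f ≡ φ b mod 𝔪₂`,
`Nα f ≡ a · s₀ b`, `Nφ f ≡ s₀ a · b mod 𝔪₀`. -/
theorem S35gHyp.exists_red (H : S35gHyp α φ V₀ V₁ V₂ s₀ s Nα Nφ q) {f : F} (hf₁ : f ∈ V₁)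
    (hf₂ : f ∈ V₂) :
    ∃ a ∈ V₀, ∃ b ∈ V₀, S35gCong V₁ f (α a) ∧ S35gCong V₂ f (φ b) ∧
      S35gCong V₀ (Nα f) (a * s₀ b) ∧ S35gCong V₀ (Nφ f) (s₀ a * b) := by
  obtain ⟨a, ha, hfa⟩ := H.res₁ f hf₁
  obtain ⟨b, hb, hfb⟩ := H.res₂ f hf₂
  have c1 : S35gCong V₁ f (α a) := ⟨hf₁, H.α_mem₁ a ha, hfa⟩
  have c2 : S35gCong V₂ f (φ b) := ⟨hf₂, H.φ_mem₂ b hb, hfb⟩
  -- `f^q ≡ φ (s₀ a)` modulo `𝔪₁`
  have c3 : S35gCong V₁ (f ^ q) (φ (s₀ a)) :=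
    (c1.pow q).trans (S35gCong.of_sub (V₁.pow_mem (H.α_mem₁ a ha) q)
      (by rw [← neg_sub]; exact neg_mem (H.frob₁ a ha)))
  -- `f^q ≡ α (s₀ b)` modulo `𝔪₂`
  have c4 : S35gCong V₂ (f ^ q) (α (s₀ b)) :=
    (c2.pow q).trans (S35gCong.of_sub (V₂.pow_mem (H.φ_mem₂ b hb) q)
      (by rw [← neg_sub]; exact neg_mem (H.frob₂ b hb)))
  have hsa := H.s₀_mem a ha
  have hsb := H.s₀_mem b hb
  have n1 := H.nrα f hf₁ hf₂ a ha (s₀ b) hsb hfa c4.2.2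
  have n2 := H.nrφ f hf₁ hf₂ (s₀ a) hsa b hb c3.2.2 hfb
  refine ⟨a, ha, b, hb, c1, c2, ?_, ?_⟩
  · exact (S35gCong.of_sub (V₀.mul_mem _ _ ha hsb) (by rw [← neg_sub]; exact neg_mem n1)).symm
  · exact (S35gCong.of_sub (V₀.mul_mem _ _ hsa hb) (by rw [← neg_sub]; exact neg_mem n2)).symm

/-- **(RED + CONCL) at `V₁`** : `s(s f) · α(Nα f) ≡ f · α(s₀ (Nφ f))` modulo `𝔪₁`. -/
theorem S35gHyp.concl₁ (H : S35gHyp α φ V₀ V₁ V₂ s₀ s Nα Nφ q) {f : F} (hf₁ : f ∈ V₁)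
    (hf₂ : f ∈ V₂) : S35gCong V₁ (s (s f) * α (Nα f)) (f * α (s₀ (Nφ f))) := by
  obtain ⟨a, ha, b, hb, c1, -, n1, n2⟩ := H.exists_red hf₁ hf₂
  have hs : ∀ {x y : F}, S35gCong V₁ x y → S35gCong V₁ (s x) (s y) :=
    fun h => h.map s H.s_mem₁ H.s_max₁
  have hs₀ : ∀ {x y : F₀}, S35gCong V₀ x y → S35gCong V₀ (s₀ x) (s₀ y) :=
    fun h => h.map s₀ H.s₀_mem H.s₀_max
  have hα : ∀ {x y : F₀}, S35gCong V₀ x y → S35gCong V₁ (α x) (α y) :=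
    fun h => h.map α H.α_mem₁ H.α_max₁
  -- `s (s f) ≡ α (s₀ (s₀ a))`
  have e1 : S35gCong V₁ (s (s f)) (α (s₀ (s₀ a))) := by
    have := hs (hs c1)
    rwa [H.s_α, H.s_α] at this
  have e2 : S35gCong V₁ (α (Nα f)) (α (a * s₀ b)) := hα n1
  have e3 : S35gCong V₁ (α (s₀ (Nφ f))) (α (s₀ (s₀ a * b))) := hα (hs₀ n2)
  have e4 := e1.mul e2
  have e5 := c1.mul e3
  have e6 : α (s₀ (s₀ a)) * α (a * s₀ b) = α a * α (s₀ (s₀ a * b)) := by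
    simp only [map_mul]; ring
  rw [e6] at e4
  exact e4.trans e5.symm

/-- **(RED + CONCL) at `V₂`** : `s(s f) · φ(Nφ f) ≡ f · φ(s₀ (Nα f))` modulo `𝔪₂`. -/
theorem S35gHyp.concl₂ (H : S35gHyp α φ V₀ V₁ V₂ s₀ s Nα Nφ q) {f : F} (hf₁ : f ∈ V₁)
    (hf₂ : f ∈ V₂) : S35gCong V₂ (s (s f) * φ (Nφ f)) (f * φ (s₀ (Nα f))) := by
  obtain ⟨a, ha, b, hb, -, c2, n1, n2⟩ := H.exists_red hf₁ hf₂
  have hs : ∀ {x y : F}, S35gCong V₂ x y → S35gCong V₂ (s x) (s y) :=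
    fun h => h.map s H.s_mem₂ H.s_max₂
  have hs₀ : ∀ {x y : F₀}, S35gCong V₀ x y → S35gCong V₀ (s₀ x) (s₀ y) :=
    fun h => h.map s₀ H.s₀_mem H.s₀_max
  have hφ : ∀ {x y : F₀}, S35gCong V₀ x y → S35gCong V₂ (φ x) (φ y) :=
    fun h => h.map φ H.φ_mem₂ H.φ_max₂
  have e1 : S35gCong V₂ (s (s f)) (φ (s₀ (s₀ b))) := by
    have := hs (hs c2)
    rwa [H.s_φ, H.s_φ] at this
  have e2 : S35gCong V₂ (φ (Nφ f)) (φ (s₀ a * b)) := hφ n2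
  have e3 : S35gCong V₂ (φ (s₀ (Nα f))) (φ (s₀ (a * s₀ b))) := hφ (hs₀ n1)
  have e4 := e1.mul e2
  have e5 := c2.mul e3
  have e6 : φ (s₀ (s₀ b)) * φ (s₀ a * b) = φ b * φ (s₀ (a * s₀ b)) := by
    simp only [map_mul]; ring
  rw [e6] at e4
  exact e4.trans e5.symm

/-- **(PRINC) at `V₁`** : if `Nα f = c hⁿ`, `Nφ f = c' h'ⁿ` then
`s(s f) · (α c · (α h)ⁿ) ≡ f · (α (s₀ c') · (α (s₀ h'))ⁿ)` modulo `𝔪₁`. -/
theorem S35gHyp.princ₁ (H : S35gHyp α φ V₀ V₁ V₂ s₀ s Nα Nφ q) {f : F} (hf₁ : f ∈ V₁)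
    (hf₂ : f ∈ V₂) {n : ℕ} {c h c' h' : F₀} (hα : Nα f = c * h ^ n) (hφ : Nφ f = c' * h' ^ n) :
    S35gCong V₁ (s (s f) * (α c * α h ^ n)) (f * (α (s₀ c') * α (s₀ h') ^ n)) := by
  have := H.concl₁ hf₁ hf₂
  rwa [hα, hφ, map_mul, map_mul, map_mul, map_pow, map_pow, map_pow] at this

/-- **(PRINC) at `V₂`** : if `Nα f = c hⁿ`, `Nφ f = c' h'ⁿ` then
`s(s f) · (φ c' · (φ h')ⁿ) ≡ f · (φ (s₀ c) · (φ (s₀ h))ⁿ)` modulo `𝔪₂`. -/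
theorem S35gHyp.princ₂ (H : S35gHyp α φ V₀ V₁ V₂ s₀ s Nα Nφ q) {f : F} (hf₁ : f ∈ V₁)
    (hf₂ : f ∈ V₂) {n : ℕ} {c h c' h' : F₀} (hα : Nα f = c * h ^ n) (hφ : Nφ f = c' * h' ^ n) :
    S35gCong V₂ (s (s f) * (φ c' * φ h' ^ n)) (f * (φ (s₀ c) * φ (s₀ h) ^ n)) := by
  have := H.concl₂ hf₁ hf₂
  rwa [hα, hφ, map_mul, map_mul, map_mul, map_pow, map_pow, map_pow] at this

/-! ### Units and division -/

section Units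

variable {K : Type*} [Field K] {V : ValuationSubring K}

/-- cancelling a unit of `V` in a congruence -/
theorem S35gCong.mul_right_cancel {x y u : K} (hu : u⁻¹ ∈ V)
    (hu0 : u ≠ 0) (h : S35gCong V (x * u) (y * u)) : S35gCong V x y := by
  have h1 := h.mul (S35gCong.refl hu)
  rwa [mul_assoc, mul_inv_cancel₀ hu0, mul_one, mul_assoc, mul_inv_cancel₀ hu0, mul_one] at h1

/-- a congruence class of a unit consists of units -/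
theorem S35gCong.inv_mem {x y : K} (h : S35gCong V x y) (hy : y⁻¹ ∈ V) (hy0 : y ≠ 0) :
    x⁻¹ ∈ V := by
  by_contra hx
  have hx0 : x ≠ 0 := by
    rintro rfl
    exact hx (by rw [inv_zero]; exact V.zero_mem)
  have h1 : x ∈ V.nonunits := by
    rw [ValuationSubring.mem_nonunits_iff_or]
    exact Or.inr hx
  have h2 : y ∈ V.nonunits := by
    have h3 : y = x - (x - y) := by ring
    rw [h3]
    exact sub_mem h1 h.2.2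
  rw [ValuationSubring.mem_nonunits_iff_or] at h2
  rcases h2 with h2 | h2
  · exact hy0 h2
  · exact h2 hy

end Units

/-! ### (NORMALISE) -/

/-- weak approximation for the pair `V₁, V₂` -/
def S35gWA (V₁ V₂ : ValuationSubring F) : Prop :=
  ∀ x₁ ∈ V₁, ∀ x₂ ∈ V₂, ∃ U : F, S35gCong V₁ U x₁ ∧ S35gCong V₂ U x₂

/-- **(NORMALISE)**, generic form : two congruences `P ≡ Q x₁ⁿ mod 𝔪₁`, `P' ≡ Q' x₂ⁿ mod 𝔪₂` can be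
realised with ONE `U` in place of `x₁`, `x₂`. -/
theorem s35g_normalise (wa : S35gWA V₁ V₂) {n : ℕ} {x₁ x₂ P Q P' Q' : F} (hx₁ : x₁ ∈ V₁)
    (hx₂ : x₂ ∈ V₂) (hQ : Q ∈ V₁) (hQ' : Q' ∈ V₂) (h1 : S35gCong V₁ P (Q * x₁ ^ n))
    (h2 : S35gCong V₂ P' (Q' * x₂ ^ n)) :
    ∃ U : F, S35gCong V₁ U x₁ ∧ S35gCong V₂ U x₂ ∧ S35gCong V₁ P (Q * U ^ n) ∧
      S35gCong V₂ P' (Q' * U ^ n) := by
  obtain ⟨U, hU1, hU2⟩ := wa x₁ hx₁ x₂ hx₂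
  exact ⟨U, hU1, hU2, h1.trans ((S35gCong.refl hQ).mul (hU1.pow n)).symm,
    h2.trans ((S35gCong.refl hQ').mul (hU2.pow n)).symm⟩

/-- **(G1'), abstract form** : `f ∈ V₁ ∩ V₂`, `Nα f = c hⁿ`, `Nφ f = c' h'ⁿ` with `h, h'` units of `V₀`
(and `c, c' ∈ V₀`) : there is `U ∈ F`, a unit at `V₁` and at `V₂`, with
`s(s f) · α c ≡ f · Uⁿ · α (s₀ c') mod 𝔪₁` and `s(s f) · φ c' ≡ f · Uⁿ · φ (s₀ c) mod 𝔪₂`. -/
theorem S35gHyp.main (H : S35gHyp α φ V₀ V₁ V₂ s₀ s Nα Nφ q) (wa : S35gWA V₁ V₂)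
    {f : F} (hf₁ : f ∈ V₁) (hf₂ : f ∈ V₂) {n : ℕ} {c h c' h' : F₀} (hc : c ∈ V₀) (hc' : c' ∈ V₀) (hh : h ∈ V₀) (hhi : h⁻¹ ∈ V₀)
    (hh0 : h ≠ 0) (hh' : h' ∈ V₀) (hhi' : h'⁻¹ ∈ V₀) (hh0' : h' ≠ 0)
    (hα : Nα f = c * h ^ n) (hφ : Nφ f = c' * h' ^ n) :
    ∃ U : F, U ∈ V₁ ∧ U⁻¹ ∈ V₁ ∧ U ∈ V₂ ∧ U⁻¹ ∈ V₂ ∧ U ≠ 0 ∧
      S35gCong V₁ (s (s f) * α c) (f * U ^ n * α (s₀ c')) ∧
      S35gCong V₂ (s (s f) * φ c') (f * U ^ n * φ (s₀ c)) := by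
  have p1 := H.princ₁ hf₁ hf₂ hα hφ
  have p2 := H.princ₂ hf₁ hf₂ hα hφ
  have hssf₁ : s (s f) ∈ V₁ := H.s_mem₁ _ (H.s_mem₁ _ hf₁)
  have hssf₂ : s (s f) ∈ V₂ := H.s_mem₂ _ (H.s_mem₂ _ hf₂)
  have hαh0 : α h ≠ 0 := (map_ne_zero α).mpr hh0
  have hφh0' : φ h' ≠ 0 := (map_ne_zero φ).mpr hh0'
  -- the two residues to be glued
  set x₁ : F := α (s₀ h') * (α h)⁻¹ with hx₁
  set x₂ : F := φ (s₀ h) * (φ h')⁻¹ with hx₂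
  have hαhi : (α h)⁻¹ ∈ V₁ := by rw [← map_inv₀]; exact H.α_mem₁ _ hhi
  have hφhi' : (φ h')⁻¹ ∈ V₂ := by rw [← map_inv₀]; exact H.φ_mem₂ _ hhi'
  have hx₁V : x₁ ∈ V₁ := V₁.mul_mem _ _ (H.α_mem₁ _ (H.s₀_mem _ hh')) hαhi
  have hx₂V : x₂ ∈ V₂ := V₂.mul_mem _ _ (H.φ_mem₂ _ (H.s₀_mem _ hh)) hφhi'
  -- divide (PRINC) by the units `(α h)ⁿ`, `(φ h')ⁿ`
  have q1 : S35gCong V₁ (s (s f) * α c) (f * α (s₀ c') * x₁ ^ n) := by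
    refine S35gCong.mul_right_cancel (u := α h ^ n)
      (by rw [← inv_pow]; exact V₁.pow_mem hαhi n) (pow_ne_zero n hαh0) ?_
    have e1 : s (s f) * α c * α h ^ n = s (s f) * (α c * α h ^ n) := by ring
    have e2 : f * α (s₀ c') * x₁ ^ n * α h ^ n = f * (α (s₀ c') * α (s₀ h') ^ n) := by
      rw [hx₁, mul_pow, inv_pow]
      field_simp
    rw [e1, e2]
    exact p1
  have q2 : S35gCong V₂ (s (s f) * φ c') (f * φ (s₀ c) * x₂ ^ n) := by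
    refine S35gCong.mul_right_cancel (u := φ h' ^ n)
      (by rw [← inv_pow]; exact V₂.pow_mem hφhi' n) (pow_ne_zero n hφh0') ?_
    have e1 : s (s f) * φ c' * φ h' ^ n = s (s f) * (φ c' * φ h' ^ n) := by ring
    have e2 : f * φ (s₀ c) * x₂ ^ n * φ h' ^ n = f * (φ (s₀ c) * φ (s₀ h) ^ n) := by
      rw [hx₂, mul_pow, inv_pow]
      field_simp
    rw [e1, e2]
    exact p2
  obtain ⟨U, hU1, hU2, r1, r2⟩ := s35g_normalise wa hx₁V hx₂V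
    (V₁.mul_mem _ _ hf₁ (H.α_mem₁ _ (H.s₀_mem _ hc')))
    (V₂.mul_mem _ _ hf₂ (H.φ_mem₂ _ (H.s₀_mem _ hc))) q1 q2
  -- `U` is a unit at both valuations
  have hs₀h0 : s₀ h ≠ 0 := (map_ne_zero s₀).mpr hh0
  have hs₀h0' : s₀ h' ≠ 0 := (map_ne_zero s₀).mpr hh0'
  have hx₁i : x₁⁻¹ ∈ V₁ := by
    have : x₁⁻¹ = α h * α ((s₀ h')⁻¹) := by
      rw [hx₁, mul_inv, inv_inv, map_inv₀, mul_comm]
    rw [this]
    refine V₁.mul_mem _ _ (H.α_mem₁ _ hh) (H.α_mem₁ _ ?_)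
    rw [← map_inv₀]
    exact H.s₀_mem _ hhi'
  have hx₂i : x₂⁻¹ ∈ V₂ := by
    have : x₂⁻¹ = φ h' * φ ((s₀ h)⁻¹) := by
      rw [hx₂, mul_inv, inv_inv, map_inv₀, mul_comm]
    rw [this]
    refine V₂.mul_mem _ _ (H.φ_mem₂ _ hh') (H.φ_mem₂ _ ?_)
    rw [← map_inv₀]
    exact H.s₀_mem _ hhi
  have hx₁0 : x₁ ≠ 0 :=
    mul_ne_zero ((map_ne_zero α).mpr hs₀h0') (inv_ne_zero hαh0)
  have hx₂0 : x₂ ≠ 0 :=
    mul_ne_zero ((map_ne_zero φ).mpr hs₀h0) (inv_ne_zero hφh0')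
  have hU0 : U ≠ 0 := by
    rintro rfl
    have := hU1.inv_mem hx₁i hx₁0
    -- `0 ≡ x₁` would make `x₁` a non-unit
    have h3 : x₁ ∈ V₁.nonunits := by
      have h4 := hU1.symm.2.2
      rwa [sub_zero] at h4
    rw [ValuationSubring.mem_nonunits_iff_or] at h3
    rcases h3 with h3 | h3
    · exact hx₁0 h3
    · exact h3 hx₁i
  refine ⟨U, hU1.1, hU1.inv_mem hx₁i hx₁0, hU2.1, hU2.inv_mem hx₂i hx₂0, hU0, ?_, ?_⟩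
  · have e : f * U ^ n * α (s₀ c') = f * α (s₀ c') * U ^ n := by ring
    rw [e]; exact r1
  · have e : f * U ^ n * φ (s₀ c) = f * φ (s₀ c) * U ^ n := by ring
    rw [e]; exact r2

/-- **(G1'), abstract form, NORMALISED** : as `S35gHyp.main`, with `c, c'` units of `V₀` and
`s₀ c' = e₁ⁿ c`, `s₀ c = e₂ⁿ c'` (`e₁, e₂ ∈ V₀`; in the application: `n`-th roots of unit constants) :
there is `U ∈ F`, a unit at `V₁` and at `V₂`, with `s(s f) ≡ f · Uⁿ` modulo `𝔪₁` AND modulo `𝔪₂`. -/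
theorem S35gHyp.main' (H : S35gHyp α φ V₀ V₁ V₂ s₀ s Nα Nφ q) (wa : S35gWA V₁ V₂)
    {f : F} (hf₁ : f ∈ V₁) (hf₂ : f ∈ V₂) {n : ℕ}
    {c h c' h' e₁ e₂ : F₀} (hci : c⁻¹ ∈ V₀) (hc0 : c ≠ 0) (hci' : c'⁻¹ ∈ V₀) (hc0' : c' ≠ 0)
    (hh : h ∈ V₀) (hhi : h⁻¹ ∈ V₀) (hh0 : h ≠ 0) (hh' : h' ∈ V₀) (hhi' : h'⁻¹ ∈ V₀)
    (hh0' : h' ≠ 0) (he₁ : e₁ ∈ V₀) (he₂ : e₂ ∈ V₀)
    (hce₁ : s₀ c' = e₁ ^ n * c) (hce₂ : s₀ c = e₂ ^ n * c')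
    (hα : Nα f = c * h ^ n) (hφ : Nφ f = c' * h' ^ n) :
    ∃ U : F, U ∈ V₁ ∧ U ∈ V₂ ∧ S35gCong V₁ (s (s f)) (f * U ^ n) ∧
      S35gCong V₂ (s (s f)) (f * U ^ n) := by
  have p1 := H.princ₁ hf₁ hf₂ hα hφ
  have p2 := H.princ₂ hf₁ hf₂ hα hφ
  have hαh0 : α h ≠ 0 := (map_ne_zero α).mpr hh0
  have hφh0' : φ h' ≠ 0 := (map_ne_zero φ).mpr hh0'
  have hαc0 : α c ≠ 0 := (map_ne_zero α).mpr hc0
  have hφc0' : φ c' ≠ 0 := (map_ne_zero φ).mpr hc0'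
  set x₁ : F := α e₁ * α (s₀ h') * (α h)⁻¹ with hx₁
  set x₂ : F := φ e₂ * φ (s₀ h) * (φ h')⁻¹ with hx₂
  have hαhi : (α h)⁻¹ ∈ V₁ := by rw [← map_inv₀]; exact H.α_mem₁ _ hhi
  have hφhi' : (φ h')⁻¹ ∈ V₂ := by rw [← map_inv₀]; exact H.φ_mem₂ _ hhi'
  have hαci : (α c)⁻¹ ∈ V₁ := by rw [← map_inv₀]; exact H.α_mem₁ _ hci
  have hφci' : (φ c')⁻¹ ∈ V₂ := by rw [← map_inv₀]; exact H.φ_mem₂ _ hci'
  have hx₁V : x₁ ∈ V₁ :=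
    V₁.mul_mem _ _ (V₁.mul_mem _ _ (H.α_mem₁ _ he₁) (H.α_mem₁ _ (H.s₀_mem _ hh'))) hαhi
  have hx₂V : x₂ ∈ V₂ :=
    V₂.mul_mem _ _ (V₂.mul_mem _ _ (H.φ_mem₂ _ he₂) (H.φ_mem₂ _ (H.s₀_mem _ hh))) hφhi'
  have q1 : S35gCong V₁ (s (s f)) (f * x₁ ^ n) := by
    refine S35gCong.mul_right_cancel (u := α c * α h ^ n)
      (by rw [mul_inv, ← inv_pow]; exact V₁.mul_mem _ _ hαci (V₁.pow_mem hαhi n))
      (mul_ne_zero hαc0 (pow_ne_zero n hαh0)) ?_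
    have e2 : f * x₁ ^ n * (α c * α h ^ n) = f * (α (s₀ c') * α (s₀ h') ^ n) := by
      rw [hce₁, map_mul, map_pow, hx₁, mul_pow, mul_pow, inv_pow]
      field_simp
    rw [e2]
    exact p1
  have q2 : S35gCong V₂ (s (s f)) (f * x₂ ^ n) := by
    refine S35gCong.mul_right_cancel (u := φ c' * φ h' ^ n)
      (by rw [mul_inv, ← inv_pow]; exact V₂.mul_mem _ _ hφci' (V₂.pow_mem hφhi' n))
      (mul_ne_zero hφc0' (pow_ne_zero n hφh0')) ?_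
    have e2 : f * x₂ ^ n * (φ c' * φ h' ^ n) = f * (φ (s₀ c) * φ (s₀ h) ^ n) := by
      rw [hce₂, map_mul, map_pow, hx₂, mul_pow, mul_pow, inv_pow]
      field_simp
    rw [e2]
    exact p2
  obtain ⟨U, hU1, hU2, r1, r2⟩ := s35g_normalise wa hx₁V hx₂V hf₁ hf₂ q1 q2
  exact ⟨U, hU1.1, hU2.1, r1, r2⟩

/-! ### Units : the norms of a unit at both `V_i` are units of `V₀` -/

/-- in a valuation ring, an `n`-th root (`n ≠ 0`) of a unit is a unit -/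
theorem s35g_unit_of_pow {K : Type*} [Field K] (V : ValuationSubring K) {x : K} {n : ℕ}
    (hn : n ≠ 0) (h : x ^ n ∈ V) (hi : (x ^ n)⁻¹ ∈ V) : x ∈ V ∧ x⁻¹ ∈ V := by
  have key : ∀ y : K, y ^ n ∈ V → y ∈ V := by
    intro y hy
    rw [← ValuationSubring.valuation_le_one_iff] at hy ⊢
    rw [map_pow] at hy
    exact (pow_le_one_iff_of_nonneg zero_le hn).mp hy
  refine ⟨key x h, key x⁻¹ ?_⟩
  rw [inv_pow]
  exact hi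

/-- the residues of a unit are units, and so is the residue of its `α`-norm -/
theorem S35gHyp.normα_unit (H : S35gHyp α φ V₀ V₁ V₂ s₀ s Nα Nφ q) {f : F} (hf₁ : f ∈ V₁)
    (hf₁' : f⁻¹ ∈ V₁) (hf₂ : f ∈ V₂) (hf₂' : f⁻¹ ∈ V₂) (hf0 : f ≠ 0) :
    (Nα f ∈ V₀ ∧ (Nα f)⁻¹ ∈ V₀ ∧ Nα f ≠ 0) ∧ (Nφ f ∈ V₀ ∧ (Nφ f)⁻¹ ∈ V₀ ∧ Nφ f ≠ 0) := by
  obtain ⟨a, ha, b, hb, c1, c2, c3, c4⟩ := H.exists_red hf₁ hf₂
  -- `a`, `b` are units of `V₀`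
  have hunit : ∀ (V : ValuationSubring F) (ι : F₀ →+* F), (∀ x ∈ V₀.nonunits, ι x ∈ V.nonunits) →
      f⁻¹ ∈ V → ∀ r ∈ V₀, S35gCong V f (ι r) → r⁻¹ ∈ V₀ ∧ r ≠ 0 := by
    intro V ι hι hfi r hr hc
    have hr0 : r ≠ 0 := by
      rintro rfl
      have h1 : f ∈ V.nonunits := by simpa using hc.2.2
      rw [ValuationSubring.mem_nonunits_iff_or] at h1
      rcases h1 with h1 | h1
      · exact hf0 h1
      · exact h1 hfi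
    refine ⟨?_, hr0⟩
    by_contra hri
    have h1 : r ∈ V₀.nonunits := by
      rw [ValuationSubring.mem_nonunits_iff_or]
      exact Or.inr hri
    have h2 : f ∈ V.nonunits := by
      have h3 : f = (f - ι r) + ι r := by ring
      rw [h3]
      exact add_mem hc.2.2 (hι r h1)
    rw [ValuationSubring.mem_nonunits_iff_or] at h2
    rcases h2 with h2 | h2
    · exact hf0 h2
    · exact h2 hfi
  obtain ⟨hai, ha0⟩ := hunit V₁ α H.α_max₁ hf₁' a ha c1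
  obtain ⟨hbi, hb0⟩ := hunit V₂ φ H.φ_max₂ hf₂' b hb c2
  have hsai : (s₀ a)⁻¹ ∈ V₀ := by rw [← map_inv₀]; exact H.s₀_mem _ hai
  have hsbi : (s₀ b)⁻¹ ∈ V₀ := by rw [← map_inv₀]; exact H.s₀_mem _ hbi
  have hsa0 : s₀ a ≠ 0 := (map_ne_zero s₀).mpr ha0
  have hsb0 : s₀ b ≠ 0 := (map_ne_zero s₀).mpr hb0
  have u1 : (a * s₀ b)⁻¹ ∈ V₀ := by rw [mul_inv]; exact V₀.mul_mem _ _ hai hsbi
  have u2 : (s₀ a * b)⁻¹ ∈ V₀ := by rw [mul_inv]; exact V₀.mul_mem _ _ hsai hbi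
  have n1 : Nα f ≠ 0 := by
    intro h0
    have h1 := c3.symm.inv_mem (by rw [h0, inv_zero]; exact V₀.zero_mem)
    have h2 : a * s₀ b ∈ V₀.nonunits := by
      have := c3.symm.2.2
      rwa [h0, sub_zero] at this
    rw [ValuationSubring.mem_nonunits_iff_or] at h2
    rcases h2 with h2 | h2
    · exact mul_ne_zero ha0 hsb0 h2
    · exact h2 u1
  have n2 : Nφ f ≠ 0 := by
    intro h0
    have h2 : s₀ a * b ∈ V₀.nonunits := by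
      have := c4.symm.2.2
      rwa [h0, sub_zero] at this
    rw [ValuationSubring.mem_nonunits_iff_or] at h2
    rcases h2 with h2 | h2
    · exact mul_ne_zero hsa0 hb0 h2
    · exact h2 u2
  exact ⟨⟨c3.1, c3.inv_mem u1 (mul_ne_zero ha0 hsb0), n1⟩,
    ⟨c4.1, c4.inv_mem u2 (mul_ne_zero hsa0 hb0), n2⟩⟩

/-- **(G1'), abstract form, PURE POWERS** (the shape delivered by the `ℚ̄`-level Kummer descent, where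
the constants are absorbed) : `f` a unit at `V₁` and at `V₂`, `n ≠ 0`, `Nα f = vⁿ`, `Nφ f = v'ⁿ` :
there is `U ∈ V₁ ∩ V₂` with `s(s f) ≡ f · Uⁿ` modulo `𝔪₁` AND modulo `𝔪₂`. -/
theorem S35gHyp.main'' (H : S35gHyp α φ V₀ V₁ V₂ s₀ s Nα Nφ q) (wa : S35gWA V₁ V₂)
    {f : F} (hf₁ : f ∈ V₁) (hf₁' : f⁻¹ ∈ V₁) (hf₂ : f ∈ V₂) (hf₂' : f⁻¹ ∈ V₂) (hf0 : f ≠ 0)
    {n : ℕ} (hn : n ≠ 0) {v v' : F₀} (hα : Nα f = v ^ n) (hφ : Nφ f = v' ^ n) :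
    ∃ U : F, U ∈ V₁ ∧ U ∈ V₂ ∧ S35gCong V₁ (s (s f)) (f * U ^ n) ∧
      S35gCong V₂ (s (s f)) (f * U ^ n) := by
  obtain ⟨⟨a1, a2, a3⟩, ⟨b1, b2, b3⟩⟩ := H.normα_unit hf₁ hf₁' hf₂ hf₂' hf0
  rw [hα] at a1 a2 a3
  rw [hφ] at b1 b2 b3
  obtain ⟨hv, hvi⟩ := s35g_unit_of_pow V₀ hn a1 a2
  obtain ⟨hv', hvi'⟩ := s35g_unit_of_pow V₀ hn b1 b2
  have hv0 : v ≠ 0 := fun h0 => a3 (by rw [h0, zero_pow hn])
  have hv0' : v' ≠ 0 := fun h0 => b3 (by rw [h0, zero_pow hn])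
  refine H.main' wa hf₁ hf₂ (c := 1) (h := v) (c' := 1) (h' := v') (e₁ := 1) (e₂ := 1)
    (by rw [inv_one]; exact V₀.one_mem) one_ne_zero (by rw [inv_one]; exact V₀.one_mem) one_ne_zero
    hv hvi hv0 hv' hvi' hv0' V₀.one_mem V₀.one_mem (by rw [map_one, one_pow, one_mul])
    (by rw [map_one, one_pow, one_mul]) (by rw [hα, one_mul]) (by rw [hφ, one_mul])

/-- quotient form of a congruence to a unit : `x ≡ y`, `x` a unit ⟹ `y ≠ 0` and `x / y ≡ 1`. -/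
theorem S35gCong.div_sub_one {K : Type*} [Field K] {V : ValuationSubring K} {x y : K}
    (h : S35gCong V x y) (hx : x⁻¹ ∈ V) (hx0 : x ≠ 0) : y ≠ 0 ∧ x / y - 1 ∈ V.nonunits := by
  have hyi : y⁻¹ ∈ V := h.symm.inv_mem hx hx0
  have hy0 : y ≠ 0 := by
    rintro rfl
    have h1 : x ∈ V.nonunits := by simpa using h.2.2
    rw [ValuationSubring.mem_nonunits_iff_or] at h1
    rcases h1 with h1 | h1
    · exact hx0 h1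
    · exact h1 hx
  refine ⟨hy0, ?_⟩
  have e : x / y - 1 = y⁻¹ * (x - y) := by field_simp
  rw [e]
  exact s35g_mul_mem_nonunits hyi h.2.2

/-- **(G1'), abstract form, QUOTIENT SHAPE** : under the hypotheses of `main''` there is `U ≠ 0` with
`s(s f) / (f Uⁿ) - 1 ∈ 𝔪₁ ∩ 𝔪₂`. -/
theorem S35gHyp.main_quot (H : S35gHyp α φ V₀ V₁ V₂ s₀ s Nα Nφ q) (wa : S35gWA V₁ V₂)
    {f : F} (hf₁ : f ∈ V₁) (hf₁' : f⁻¹ ∈ V₁) (hf₂ : f ∈ V₂) (hf₂' : f⁻¹ ∈ V₂) (hf0 : f ≠ 0)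
    {n : ℕ} (hn : n ≠ 0) {v v' : F₀} (hα : Nα f = v ^ n) (hφ : Nφ f = v' ^ n) :
    ∃ U : F, U ≠ 0 ∧ s (s f) / (f * U ^ n) - 1 ∈ V₁.nonunits ∧
      s (s f) / (f * U ^ n) - 1 ∈ V₂.nonunits := by
  obtain ⟨U, -, -, c1, c2⟩ := H.main'' wa hf₁ hf₁' hf₂ hf₂' hf0 hn hα hφ
  have hss0 : s (s f) ≠ 0 := (map_ne_zero s).mpr ((map_ne_zero s).mpr hf0)
  have hssi₁ : (s (s f))⁻¹ ∈ V₁ := by
    rw [← map_inv₀, ← map_inv₀]; exact H.s_mem₁ _ (H.s_mem₁ _ hf₁')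
  have hssi₂ : (s (s f))⁻¹ ∈ V₂ := by
    rw [← map_inv₀, ← map_inv₀]; exact H.s_mem₂ _ (H.s_mem₂ _ hf₂')
  obtain ⟨hy0, d1⟩ := c1.div_sub_one hssi₁ hss0
  obtain ⟨-, d2⟩ := c2.div_sub_one hssi₂ hss0
  refine ⟨U, ?_, d1, d2⟩
  rintro rfl
  rw [zero_pow hn, mul_zero] at hy0
  exact hy0 rfl

/-! ### The first `(σ - 1)` : `s f / f` is a unit at a discrete valuation preserved by `s` -/

/-- `V` is discrete with uniformiser `ϖ` : every `x ≠ 0` is `ϖ^k · unit`. -/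
def S35gDisc {K : Type*} [Field K] (V : ValuationSubring K) (ϖ : K) : Prop :=
  ∀ x : K, x ≠ 0 → ∃ k : ℤ, x * ϖ ^ k ∈ V ∧ (x * ϖ ^ k)⁻¹ ∈ V

theorem s35g_zpow_mem {K : Type*} [Field K] (V : ValuationSubring K) {c : K} (hc : c ∈ V)
    (hci : c⁻¹ ∈ V) (k : ℤ) : c ^ k ∈ V := by
  obtain ⟨m, rfl | rfl⟩ := k.eq_nat_or_neg
  · rw [zpow_natCast]; exact V.pow_mem hc m
  · rw [zpow_neg, zpow_natCast, ← inv_pow]; exact V.pow_mem hci m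

/-- if `s` preserves `V` and multiplies the uniformiser by a unit then `s x / x` is a unit of `V`. -/
theorem s35g_map_div_unit {K : Type*} [Field K] {V : ValuationSubring K} {ϖ : K}
    (hd : S35gDisc V ϖ) (hϖ0 : ϖ ≠ 0) (s : K →+* K) (hs : ∀ x ∈ V, s x ∈ V) {c : K} (hc : c ∈ V)
    (hci : c⁻¹ ∈ V) (hsϖ : s ϖ = ϖ * c) {x : K} (hx : x ≠ 0) :
    s x / x ∈ V ∧ (s x / x)⁻¹ ∈ V := by
  obtain ⟨k, hu, hui⟩ := hd x hx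
  have hc0 : c ≠ 0 := by
    rintro rfl
    rw [mul_zero] at hsϖ
    exact hϖ0 ((map_eq_zero s).mp hsϖ)
  have hϖk : ϖ ^ k ≠ 0 := zpow_ne_zero k hϖ0
  have hck : c ^ k ≠ 0 := zpow_ne_zero k hc0
  have hsx0 : s x ≠ 0 := (map_ne_zero s).mpr hx
  have e1 : s (x * ϖ ^ k) = s x * (ϖ ^ k * c ^ k) := by
    rw [map_mul, map_zpow₀, hsϖ, mul_zpow]
  have hsu : s x * (ϖ ^ k * c ^ k) ∈ V := e1 ▸ hs _ hu
  have hsui : (s x * (ϖ ^ k * c ^ k))⁻¹ ∈ V := by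
    rw [← e1, ← map_inv₀]; exact hs _ hui
  constructor
  · have e2 : s x / x = s x * (ϖ ^ k * c ^ k) * (x * ϖ ^ k)⁻¹ * c ^ (-k) := by
      rw [zpow_neg]; field_simp
    rw [e2]
    exact V.mul_mem _ _ (V.mul_mem _ _ hsu hui) (s35g_zpow_mem V hc hci _)
  · have e2 : (s x / x)⁻¹ = (s x * (ϖ ^ k * c ^ k))⁻¹ * (x * ϖ ^ k) * c ^ k := by
      field_simp
    rw [e2]
    exact V.mul_mem _ _ (V.mul_mem _ _ hsui hu) (s35g_zpow_mem V hc hci _)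

/-- an automorphism preserving `V` multiplies a generator of the maximal ideal by a unit -/
theorem s35g_unif_unit {K : Type*} [Field K] {V : ValuationSubring K} {ϖ : K}
    (hϖ : ϖ ∈ V.nonunits) (hdvd : ∀ x ∈ V.nonunits, x / ϖ ∈ V) (s : K ≃+* K)
    (hs : ∀ x, s x ∈ V ↔ x ∈ V) : s ϖ / ϖ ∈ V ∧ (s ϖ / ϖ)⁻¹ ∈ V := by
  have hnu : ∀ x, s x ∈ V.nonunits ↔ x ∈ V.nonunits := by
    intro x
    rw [ValuationSubring.mem_nonunits_iff_or, ValuationSubring.mem_nonunits_iff_or, ← map_inv₀,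
      hs, map_eq_zero_iff s s.injective]
  have h1 : s ϖ ∈ V.nonunits := (hnu ϖ).mpr hϖ
  have h2 : s.symm ϖ ∈ V.nonunits := by
    rw [← hnu, RingEquiv.apply_symm_apply]; exact hϖ
  refine ⟨hdvd _ h1, ?_⟩
  have h3 := (hs _).mpr (hdvd _ h2)
  rw [map_div₀, RingEquiv.apply_symm_apply] at h3
  rwa [inv_div]

/-- **(G1'), abstract form, WITH THE FIRST `(σ - 1)` BUILT IN** (no unit hypothesis on `f`) : `f ≠ 0`,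
`Nα f = vⁿ`, `Nφ f = v'ⁿ`, the norms multiplicative, non-vanishing and `(s, s₀)`-equivariant, `V₁, V₂` discrete
with a common uniformiser `ϖ` such that `s ϖ = ϖ · (unit)`.  Then `f₁ := s(s f) / f` is a unit at both
`V_i` and there is `U ≠ 0` with `s(s f₁) / (f₁ Uⁿ) - 1 ∈ 𝔪₁ ∩ 𝔪₂`. -/
theorem S35gHyp.main_dd (H : S35gHyp α φ V₀ V₁ V₂ s₀ s Nα Nφ q) (wa : S35gWA V₁ V₂)
    {ϖ c : F} (hd₁ : S35gDisc V₁ ϖ) (hd₂ : S35gDisc V₂ ϖ) (hϖ0 : ϖ ≠ 0)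
    (hc₁ : c ∈ V₁) (hci₁ : c⁻¹ ∈ V₁) (hc₂ : c ∈ V₂) (hci₂ : c⁻¹ ∈ V₂) (hsϖ : s ϖ = ϖ * c)
    (hNα : ∀ g, Nα (s g) = s₀ (Nα g)) (hNφ : ∀ g, Nφ (s g) = s₀ (Nφ g))
    (hmα : ∀ g g', Nα (g * g') = Nα g * Nα g') (hmφ : ∀ g g', Nφ (g * g') = Nφ g * Nφ g')
    (h0α : ∀ g, g ≠ 0 → Nα g ≠ 0) (h0φ : ∀ g, g ≠ 0 → Nφ g ≠ 0)
    {f : F} (hf0 : f ≠ 0) {n : ℕ} (hn : n ≠ 0) {v v' : F₀} (hα : Nα f = v ^ n)
    (hφ : Nφ f = v' ^ n) :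
    (s (s f) / f ∈ V₁ ∧ (s (s f) / f)⁻¹ ∈ V₁ ∧ s (s f) / f ∈ V₂ ∧ (s (s f) / f)⁻¹ ∈ V₂) ∧
    ∃ U : F, U ≠ 0 ∧ s (s (s (s f) / f)) / (s (s f) / f * U ^ n) - 1 ∈ V₁.nonunits ∧
      s (s (s (s f) / f)) / (s (s f) / f * U ^ n) - 1 ∈ V₂.nonunits := by
  have hsf0 : s f ≠ 0 := (map_ne_zero s).mpr hf0
  have hssf0 : s (s f) ≠ 0 := (map_ne_zero s).mpr hsf0
  have e : s (s f) / f = s (s f) / s f * (s f / f) := by field_simp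
  obtain ⟨a1, a1'⟩ := s35g_map_div_unit hd₁ hϖ0 s H.s_mem₁ hc₁ hci₁ hsϖ hf0
  obtain ⟨a2, a2'⟩ := s35g_map_div_unit hd₁ hϖ0 s H.s_mem₁ hc₁ hci₁ hsϖ hsf0
  obtain ⟨b1, b1'⟩ := s35g_map_div_unit hd₂ hϖ0 s H.s_mem₂ hc₂ hci₂ hsϖ hf0
  obtain ⟨b2, b2'⟩ := s35g_map_div_unit hd₂ hϖ0 s H.s_mem₂ hc₂ hci₂ hsϖ hsf0
  have u1 : s (s f) / f ∈ V₁ := e ▸ V₁.mul_mem _ _ a2 a1
  have u1' : (s (s f) / f)⁻¹ ∈ V₁ := by rw [e, mul_inv]; exact V₁.mul_mem _ _ a2' a1'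
  have u2 : s (s f) / f ∈ V₂ := e ▸ V₂.mul_mem _ _ b2 b1
  have u2' : (s (s f) / f)⁻¹ ∈ V₂ := by rw [e, mul_inv]; exact V₂.mul_mem _ _ b2' b1'
  have hf₁0 : s (s f) / f ≠ 0 := div_ne_zero hssf0 hf0
  have hv0 : v ≠ 0 := fun h0 => h0α f hf0 (by rw [hα, h0, zero_pow hn])
  have hv0' : v' ≠ 0 := fun h0 => h0φ f hf0 (by rw [hφ, h0, zero_pow hn])
  have nα : Nα (s (s f) / f) = (s₀ (s₀ v) / v) ^ n := by
    have h1 : Nα (s (s f) / f) * Nα f = Nα (s (s f)) := by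
      rw [← hmα]; congr 1; field_simp
    rw [hNα, hNα, hα, map_pow, map_pow] at h1
    rw [div_pow, eq_div_iff (pow_ne_zero n hv0)]
    exact h1
  have nφ : Nφ (s (s f) / f) = (s₀ (s₀ v') / v') ^ n := by
    have h1 : Nφ (s (s f) / f) * Nφ f = Nφ (s (s f)) := by
      rw [← hmφ]; congr 1; field_simp
    rw [hNφ, hNφ, hφ, map_pow, map_pow] at h1
    rw [div_pow, eq_div_iff (pow_ne_zero n hv0')]
    exact h1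
  exact ⟨⟨u1, u1', u2, u2'⟩, H.main_quot wa u1 u1' u2 u2' hf₁0 hn nα nφ⟩

end Fermat.Agent.S35
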