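import Mathlib
import Fermat.Agent.S35.NormRed.Amb
import Fermat.Agent.SS.Val.ModFrob2

/-!
# S35, leaf (G1') / (T-NORM), CONCRETE FORM FOR `α` : the norm `N_α : F_E(M q) → F_E(M)`

Setting of `SS/Val/ModMain.lean` : `E ⊂ ℚ̄`, `𝔸` over `q`, `A₀ = 𝔸 ∩ E` a DVR with uniformiser `ϖ`,
`q ∤ M`, `F₀ = F_E(M) ⊂ F = F_E(M q)` (`α = ssvmdIncl E M q`), `h` ANY witness of `ssvmm_amb`.

* generic (`ssvmgR`) : the Gauss ring `R` of `F₀` inside `F` has fraction field `F₀`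
  (`s35gc_isFractionRing`), with `R → F₀ → F` a scalar tower; residue characteristic `q`.
* `s35gc_nrα` : for `g ∈ V₁ ∩ V₂`, `a₁, a₂` in the Gauss ring of `F₀` with `g ≡ α a₁ mod 𝔪₁`,
  `g^q ≡ α a₂ mod 𝔪₂` : `N_{F/αF₀}(g) - a₁ a₂ ∈ ϖ · (Gauss ring of F₀)` - the field `nrα` of `S35gHyp`
  with `V₀ = ssvmfW` (helper26's Gauss valuation subring).
-/

set_option autoImplicit false
set_option linter.unusedSectionVars false
set_option linter.unusedVariables false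
set_option linter.style.haveILetI false
set_option synthInstance.maxHeartbeats 400000

noncomputable section

namespace Fermat.Agent.S35

open Polynomial ModularCurve AlgebraicCurve IsLocalRing IntermediateField Fermat.Agent.S18
  Fermat.Agent.SS

/-- residue characteristic from `q ∈ 𝔪` -/
theorem s35gc_charP_of_mem {R : Type*} [CommRing R] [IsLocalRing R] {q : ℕ} [hq : Fact q.Prime]
    (h : ((q : ℕ) : R) ∈ maximalIdeal R) : CharP (ResidueField R) q := by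
  have h0 : ((q : ℕ) : ResidueField R) = 0 := by
    have := (residue_eq_zero_iff (R := R) _).mpr h
    rwa [map_natCast] at this
  obtain ⟨c, hc⟩ := CharP.exists (ResidueField R)
  have hdvd : c ∣ q := (CharP.cast_eq_zero_iff (ResidueField R) c q).mp h0
  rcases (Nat.dvd_prime hq.out).mp hdvd with h1 | h1
  · exact absurd h1 (CharP.char_ne_one (ResidueField R) c)
  · exact h1 ▸ hc

section Generic

variable {A₀ : Type*} [CommRing A₀] [IsDomain A₀] [IsDiscreteValuationRing A₀] [CharZero A₀]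
variable {L₀ : Type*} [Field L₀] [Algebra A₀ L₀] [IsFractionRing A₀ L₀]
variable {ϖ : A₀}
variable {F₀ F : IntermediateField L₀ (LaurentSeries L₀)} (hle : F₀ ≤ F)

/-- `ψ : R → F₀` is injective -/
theorem s35gc_psi_injective : Function.Injective (ssvmgPsi (A₀ := A₀) hle) := by
  intro r r' hrr
  apply Subtype.ext
  rw [← ssvmgPsi_spec hle r, ← ssvmgPsi_spec hle r', hrr]

/-- `ψ` of the image of `x` is `x` -/
theorem s35gc_psi_mk (x : ↥F₀) (hx : x ∈ s18vO A₀ F₀) :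
    ssvmgPsi hle (⟨IntermediateField.inclusion hle x, (mem_ssvmgR A₀ hle).mpr ⟨x, hx, rfl⟩⟩ :
      ↥(ssvmgR A₀ hle)) = x := by
  apply (IntermediateField.inclusion hle).toRingHom.injective
  rw [ssvmgPsi_spec]
  rfl

/-- `ψ` takes values in the Gauss ring -/
theorem s35gc_psi_mem (r : ↥(ssvmgR A₀ hle)) : ssvmgPsi hle r ∈ s18vO A₀ F₀ :=
  ((ssvmgEquiv A₀ hle).symm r).2

/-- `F₀ = Frac R` -/
theorem s35gc_isFractionRing (hϖ : Irreducible ϖ) (hF₀ : S18VGen A₀ F₀) :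
    letI := (ssvmgPsi (A₀ := A₀) hle).toAlgebra
    IsFractionRing ↥(ssvmgR A₀ hle) ↥F₀ := by
  letI := (ssvmgPsi (A₀ := A₀) hle).toAlgebra
  haveI : FaithfulSMul ↥(ssvmgR A₀ hle) ↥F₀ :=
    (faithfulSMul_iff_algebraMap_injective _ _).mpr (s35gc_psi_injective hle)
  refine IsFractionRing.of_field _ _ fun z => ?_
  obtain ⟨a, b, hb, hab⟩ := ssvmgR_frac hle hϖ hF₀ z
  refine ⟨a, b, ?_⟩
  show z = ssvmgPsi hle a / ssvmgPsi hle b
  have hb' : ssvmgPsi hle b ≠ 0 := fun h0 =>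
    hb (s35gc_psi_injective hle (h0.trans (map_zero _).symm))
  rw [eq_div_iff hb']
  apply (IntermediateField.inclusion hle).toRingHom.injective
  rw [map_mul, ssvmgPsi_spec, ssvmgPsi_spec]
  exact hab

end Generic

/-! ### the modular instance -/

section Modular

local notation "Qb" => AlgebraicClosure ℚ

variable {q : ℕ} [Fact q.Prime] [NeZero q] (𝔸 : ValuationSubring Qb) (E : IntermediateField ℚ Qb)
  [IsDiscreteValuationRing ↥(s18dVal 𝔸 E)] [CharZero ↥(s18dVal 𝔸 E)] (M : ℕ) [NeZero M]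
variable {ϖ : ↥(s18dVal 𝔸 E)} {Ξ G : (↥(ssvmmR 𝔸 E M q))[X]}
  (h : SsvAmb (ssvmmR 𝔸 E M q) (ssvmgRUnif (ssvmm_le E M q) ϖ) (ssvmmY E M q) Ξ
    (X - C (ssvmmJ 𝔸 E M q ^ q)) (X ^ q - C (ssvmmJ 𝔸 E M q)) G)

/-- the residue field of `R` has characteristic `q` -/
theorem s35gc_charP (hA : 𝔸.LiesOverPrime q) (hϖ : Irreducible ϖ) :
    CharP (ResidueField ↥(ssvmmR 𝔸 E M q)) q := by
  apply s35gc_charP_of_mem
  have h1 : ((q : ℕ) : ↥(s18dVal 𝔸 E)) ∈ maximalIdeal ↥(s18dVal 𝔸 E) := s18d_natCast_mem 𝔸 E hA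
  rw [hϖ.maximalIdeal_eq, Ideal.mem_span_singleton] at h1
  obtain ⟨c, hc⟩ := h1
  have hirr := ssvmgRUnif_irreducible (ssvmm_le E M q) hϖ
  rw [hirr.maximalIdeal_eq, Ideal.mem_span_singleton]
  have hcmem : algebraMap ↥(s18dVal 𝔸 E) ↥(modularFunctionFieldFullC E (M * q)) c ∈
      ssvmmR 𝔸 E M q := by
    refine (mem_ssvmgR _ (ssvmm_le E M q)).mpr
      ⟨algebraMap ↥(s18dVal 𝔸 E) ↥(modularFunctionFieldFullC E M) c, s18vg_algebraMap_mem _ c, ?_⟩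
    apply Subtype.ext
    show ((algebraMap ↥(s18dVal 𝔸 E) ↥(modularFunctionFieldFullC E M) c :
      ↥(modularFunctionFieldFullC E M)) : LaurentSeries ↥E) = _
    rw [s18v_coe_algebraMap, s18v_coe_algebraMap]
  refine ⟨⟨_, hcmem⟩, ?_⟩
  apply Subtype.ext
  push_cast
  rw [ssvmgRUnif_coe, ← map_mul, ← hc, map_natCast]

set_option maxHeartbeats 1600000 in
/-- **(NR) for `α`, modular instance** : the field `nrα` of `S35gHyp`. -/
theorem s35gc_nrα (hA : 𝔸.LiesOverPrime q) (hϖ : Irreducible ϖ)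
    (g : ↥(modularFunctionFieldFullC E (M * q))) (hg₁ : g ∈ h.V₁) (hg₂ : g ∈ h.V₂)
    (a₁ a₂ : ↥(modularFunctionFieldFullC E M))
    (ha₁ : a₁ ∈ s18vO ↥(s18dVal 𝔸 E) (modularFunctionFieldFullC E M))
    (ha₂ : a₂ ∈ s18vO ↥(s18dVal 𝔸 E) (modularFunctionFieldFullC E M))
    (h₁ : g - ssvmdIncl E M q a₁ ∈ h.V₁.nonunits)
    (h₂ : g ^ q - ssvmdIncl E M q a₂ ∈ h.V₂.nonunits) :
    letI := algebraAlong (ssvmdIncl E M q)
    ∃ c ∈ s18vO ↥(s18dVal 𝔸 E) (modularFunctionFieldFullC E M),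
      Algebra.norm ↥(modularFunctionFieldFullC E M) g - a₁ * a₂ =
        algebraMap ↥(s18dVal 𝔸 E) ↥(modularFunctionFieldFullC E M) ϖ * c := by
  haveI := s35gc_charP 𝔸 E M hA hϖ
  obtain ⟨r₁, hr₁⟩ : ∃ r : ↥(ssvmmR 𝔸 E M q),
      (r : ↥(modularFunctionFieldFullC E (M * q))) = ssvmdIncl E M q a₁ :=
    ⟨⟨ssvmdIncl E M q a₁, (mem_ssvmgR _ (ssvmm_le E M q)).mpr ⟨a₁, ha₁, rfl⟩⟩, rfl⟩
  obtain ⟨r₂, hr₂⟩ : ∃ r : ↥(ssvmmR 𝔸 E M q),
      (r : ↥(modularFunctionFieldFullC E (M * q))) = ssvmdIncl E M q a₂ :=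
    ⟨⟨ssvmdIncl E M q a₂, (mem_ssvmgR _ (ssvmm_le E M q)).mpr ⟨a₂, ha₂, rfl⟩⟩, rfl⟩
  rw [← hr₁] at h₁
  rw [← hr₂] at h₂
  obtain ⟨c, hc⟩ := s35n_norm_congr_emb (ssvmdIncl E M q).toRingHom
    (ssvmgPsi (A₀ := ↥(s18dVal 𝔸 E)) (ssvmm_le E M q))
    (fun r => ssvmgPsi_spec (ssvmm_le E M q) r)
    (fun z => ssvmgR_frac (ssvmm_le E M q) hϖ (s18v_gen_full M) z)
    h g hg₁ hg₂ r₁ r₂ h₁ h₂
  refine ⟨ssvmgPsi (ssvmm_le E M q) c, s35gc_psi_mem (ssvmm_le E M q) c, ?_⟩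
  have e1 : ssvmgPsi (ssvmm_le E M q) r₁ = a₁ := by
    apply (ssvmdIncl E M q).toRingHom.injective
    exact (ssvmgPsi_spec (ssvmm_le E M q) r₁).trans hr₁
  have e2 : ssvmgPsi (ssvmm_le E M q) r₂ = a₂ := by
    apply (ssvmdIncl E M q).toRingHom.injective
    exact (ssvmgPsi_spec (ssvmm_le E M q) r₂).trans hr₂
  have e3 : ssvmgPsi (ssvmm_le E M q) (ssvmgRUnif (ssvmm_le E M q) ϖ) =
      algebraMap ↥(s18dVal 𝔸 E) ↥(modularFunctionFieldFullC E M) ϖ := by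
    apply (ssvmdIncl E M q).toRingHom.injective
    refine (ssvmgPsi_spec (ssvmm_le E M q) _).trans ?_
    rw [ssvmgRUnif_coe]
    apply Subtype.ext
    show _ = ((algebraMap ↥(s18dVal 𝔸 E) ↥(modularFunctionFieldFullC E M) ϖ :
      ↥(modularFunctionFieldFullC E M)) : LaurentSeries ↥E)
    rw [s18v_coe_algebraMap, s18v_coe_algebraMap]
  rw [e1, e2, e3] at hc
  exact hc

end Modular

end Fermat.Agent.S35
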