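import Mathlib
import Fermat.Agent.S35.G1.ConcA
import Fermat.Agent.S35.G1.Abs
import Fermat.Agent.SS.Val.ModALRes

/-!
# S35, leaf (G1') / (T-NORM), CONCRETE FORM FOR `φ`, and THE CONCRETE INSTANCE OF `S35gHyp`

* `s35g_norm_transport` : `w : F ≃+* F` with `w ∘ φ = α` carries the norm along `φ` to the norm along `α` :
  `N_φ(g) = N_α(w g)`.
* `s35g_nrφ_of_nrα` : the abstract mirror : (NR) for `α` + the `V`-swap of `w` ⟹ (NR) for `φ`.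
* `s35gc_nrφ` : (NR) for `φ` in helper26's literal modular setting (with his Atkin-Lehner involution).
* `s35gc_hyp` : **the instance of `S35gHyp`** for `α = ssvmdIncl E M q`, `φ = ssvmfPhi E M q`,
  `V₀ = ssvmfW` (the Gauss ring of `F_E(M)`), `V₁ = h.V₁`, `V₂ = h.V₂`, `Nα, Nφ` the field norms along `α, φ`,
  and ANY pair of ring endomorphisms `s₀` of `F_E(M)`, `s` of `F_E(M q)` which are compatible with `α, φ`, preserve
  the three valuation rings and their maximal ideals, and such that `s₀` reduces to the coefficientwise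
  Frobenius (= what `SS/Val/ModGal.lean` provides for a Frobenius lift).
-/

set_option autoImplicit false
set_option linter.unusedSectionVars false
set_option linter.unusedVariables false
set_option linter.style.haveILetI false
set_option synthInstance.maxHeartbeats 400000

noncomputable section

namespace Fermat.Agent.S35

open Polynomial ModularCurve AlgebraicCurve IsLocalRing IntermediateField Fermat.Agent.S18
  Fermat.Agent.SS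

/-! ### generic : transport of norms and the abstract mirror -/

section Generic

variable {K F : Type*} [Field K] [Field F]

/-- the norm of `g : F` along an embedding `ι : K → F` -/
def s35gNorm (ι : K →+* F) (g : F) : K :=
  letI := ι.toAlgebra
  Algebra.norm K g

/-- `w ∘ φ = α` carries the norm along `φ` to the norm along `α` -/
theorem s35g_norm_transport (α φ : K →+* F) (w : F ≃+* F) (hw : ∀ x, w (φ x) = α x) (g : F) :
    s35gNorm φ g = s35gNorm α (w g) := by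
  unfold s35gNorm
  have he : (@algebraMap K F _ _ α.toAlgebra).comp ((RingEquiv.refl K : K ≃+* K) : K →+* K) =
      ((w : F ≃+* F) : F →+* F).comp (@algebraMap K F _ _ φ.toAlgebra) := by
    ext x
    exact (hw x).symm
  have := @Algebra.norm_eq_of_equiv_equiv K F K F _ _ _ _ φ.toAlgebra α.toAlgebra
    (RingEquiv.refl K) w he g
  simpa using this

/-- **the abstract mirror** : (NR) for `α` and the `V`-swap of `w` give (NR) for `φ`. -/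
theorem s35g_nrφ_of_nrα (α φ : K →+* F) (w : F ≃+* F) (hwφ : ∀ x, w (φ x) = α x)
    (V₁ V₂ : ValuationSubring F) (e₁ : V₁.comap (w : F →+* F) = V₂)
    (e₂ : V₂.comap (w : F →+* F) = V₁) (q : ℕ) (O : K → Prop) (P : K → Prop)
    (nrα : ∀ g ∈ V₁, g ∈ V₂ → ∀ a₁ a₂, O a₁ → O a₂ → g - α a₁ ∈ V₁.nonunits →
      g ^ q - α a₂ ∈ V₂.nonunits → P (s35gNorm α g - a₁ * a₂))
    (g : F) (hg₁ : g ∈ V₁) (hg₂ : g ∈ V₂) (b₁ b₂ : K) (hb₁ : O b₁) (hb₂ : O b₂)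
    (h₁ : g ^ q - φ b₁ ∈ V₁.nonunits) (h₂ : g - φ b₂ ∈ V₂.nonunits) :
    P (s35gNorm φ g - b₁ * b₂) := by
  rw [s35g_norm_transport α φ w hwφ g, mul_comm b₁ b₂]
  have hwg₁ : w g ∈ V₁ := (ssvmar_mem_of_comap e₁ rfl).mp hg₂
  have hwg₂ : w g ∈ V₂ := (ssvmar_mem_of_comap e₂ rfl).mp hg₁
  refine nrα (w g) hwg₁ hwg₂ b₂ b₁ hb₂ hb₁ ?_ ?_
  · have e : w (g - φ b₂) = w g - α b₂ := by rw [map_sub, hwφ]
    exact (ssvmar_nonunits_of_comap e₁ e).mp h₂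
  · have e : w (g ^ q - φ b₁) = w g ^ q - α b₁ := by rw [map_sub, map_pow, hwφ]
    exact (ssvmar_nonunits_of_comap e₂ e).mp h₁

end Generic

/-! ### the modular instance -/

section Modular

local notation "Qb" => AlgebraicClosure ℚ

variable {q : ℕ} [Fact q.Prime] [NeZero q] (𝔸 : ValuationSubring Qb) (E : IntermediateField ℚ Qb)
  [IsDiscreteValuationRing ↥(s18dVal 𝔸 E)] [CharZero ↥(s18dVal 𝔸 E)] (M : ℕ) [NeZero M]
variable {ϖ : ↥(s18dVal 𝔸 E)} {Ξ G : (↥(ssvmmR 𝔸 E M q))[X]}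
  (h : SsvAmb (ssvmmR 𝔸 E M q) (ssvmgRUnif (ssvmm_le E M q) ϖ) (ssvmmY E M q) Ξ
    (X - C (ssvmmJ 𝔸 E M q ^ q)) (X ^ q - C (ssvmmJ 𝔸 E M q)) G)

/-- (NR) for `α` in terms of `s35gNorm` -/
theorem s35gc_nrα' (hA : 𝔸.LiesOverPrime q) (hϖ : Irreducible ϖ)
    (g : ↥(modularFunctionFieldFullC E (M * q))) (hg₁ : g ∈ h.V₁) (hg₂ : g ∈ h.V₂)
    (a₁ a₂ : ↥(modularFunctionFieldFullC E M))
    (ha₁ : a₁ ∈ s18vO ↥(s18dVal 𝔸 E) (modularFunctionFieldFullC E M))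
    (ha₂ : a₂ ∈ s18vO ↥(s18dVal 𝔸 E) (modularFunctionFieldFullC E M))
    (h₁ : g - ssvmdIncl E M q a₁ ∈ h.V₁.nonunits)
    (h₂ : g ^ q - ssvmdIncl E M q a₂ ∈ h.V₂.nonunits) :
    ∃ c ∈ s18vO ↥(s18dVal 𝔸 E) (modularFunctionFieldFullC E M),
      s35gNorm (ssvmdIncl E M q).toRingHom g - a₁ * a₂ =
        algebraMap ↥(s18dVal 𝔸 E) ↥(modularFunctionFieldFullC E M) ϖ * c :=
  s35gc_nrα 𝔸 E M h hA hϖ g hg₁ hg₂ a₁ a₂ ha₁ ha₂ h₁ h₂

set_option maxHeartbeats 1000000 in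
/-- **(NR) for `φ`, modular instance** : the field `nrφ` of `S35gHyp`. -/
theorem s35gc_nrφ (hA : 𝔸.LiesOverPrime q) (hqM : ¬ q ∣ M) (hϖ : Irreducible ϖ)
    (g : ↥(modularFunctionFieldFullC E (M * q))) (hg₁ : g ∈ h.V₁) (hg₂ : g ∈ h.V₂)
    (b₁ b₂ : ↥(modularFunctionFieldFullC E M))
    (hb₁ : b₁ ∈ s18vO ↥(s18dVal 𝔸 E) (modularFunctionFieldFullC E M))
    (hb₂ : b₂ ∈ s18vO ↥(s18dVal 𝔸 E) (modularFunctionFieldFullC E M))
    (h₁ : g ^ q - ssvmfPhi E M q b₁ ∈ h.V₁.nonunits)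
    (h₂ : g - ssvmfPhi E M q b₂ ∈ h.V₂.nonunits) :
    ∃ c ∈ s18vO ↥(s18dVal 𝔸 E) (modularFunctionFieldFullC E M),
      s35gNorm (ssvmfPhi E M q) g - b₁ * b₂ =
        algebraMap ↥(s18dVal 𝔸 E) ↥(modularFunctionFieldFullC E M) ϖ * c := by
  obtain ⟨w, hwα, hwβ, hww, -⟩ := ssvma_exists_w E M hqM
  have e₁ := ssvma_comap_V₁ 𝔸 E M hA hqM hϖ Ξ G h w hwα hwβ hww
  have e₂ := ssvma_comap_V₂ 𝔸 E M hA hqM hϖ Ξ G h w hwα hwβ
  exact s35g_nrφ_of_nrα (ssvmdIncl E M q).toRingHom (ssvmfPhi E M q) w hwβ h.V₁ h.V₂ e₁ e₂ q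
    (fun x => x ∈ s18vO ↥(s18dVal 𝔸 E) (modularFunctionFieldFullC E M))
    (fun x => ∃ c ∈ s18vO ↥(s18dVal 𝔸 E) (modularFunctionFieldFullC E M),
      x = algebraMap ↥(s18dVal 𝔸 E) ↥(modularFunctionFieldFullC E M) ϖ * c)
    (fun g hg₁ hg₂ a₁ a₂ ha₁ ha₂ h₁ h₂ => s35gc_nrα' 𝔸 E M h hA hϖ g hg₁ hg₂ a₁ a₂ ha₁ ha₂ h₁ h₂)
    g hg₁ hg₂ b₁ b₂ hb₁ hb₂ h₁ h₂

/-- non-units of the Gauss valuation subring `V₀` of `F_E(M)` -/
theorem s35gc_mem_nonunits₀ (hϖ : Irreducible ϖ) (x : ↥(modularFunctionFieldFullC E M)) :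
    x ∈ (ssvmfW hϖ (modularFunctionFieldFullC E M) (s18v_gen_full M)).nonunits ↔
      ∃ z ∈ s18vO ↥(s18dVal 𝔸 E) (modularFunctionFieldFullC E M),
        x = algebraMap ↥(s18dVal 𝔸 E) ↥(modularFunctionFieldFullC E M) ϖ * z :=
  ssvmf_mem_nonunits_iff hϖ _ _ x

set_option maxHeartbeats 2000000 in
/-- **THE CONCRETE INSTANCE OF `S35gHyp`** (single field `E`).  `s₀`, `s` : ring endomorphisms of
`F_E(M)`, `F_E(M q)` compatible with `α`, `φ`, preserving the valuation rings and their maximal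
ideals, `s₀` reducing to the coefficientwise Frobenius. -/
theorem s35gc_hyp [CharP (ResidueField ↥(s18dVal 𝔸 E)) q] (hA : 𝔸.LiesOverPrime q)
    (hqM : ¬ q ∣ M) (hϖ : Irreducible ϖ)
    (s₀ : ↥(modularFunctionFieldFullC E M) →+* ↥(modularFunctionFieldFullC E M))
    (s : ↥(modularFunctionFieldFullC E (M * q)) →+* ↥(modularFunctionFieldFullC E (M * q)))
    (hsα : ∀ x, s (ssvmdIncl E M q x) = ssvmdIncl E M q (s₀ x))
    (hsφ : ∀ x, s (ssvmfPhi E M q x) = ssvmfPhi E M q (s₀ x))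
    (hs₁ : ∀ x ∈ h.V₁, s x ∈ h.V₁) (hs₁' : ∀ x ∈ h.V₁.nonunits, s x ∈ h.V₁.nonunits)
    (hs₂ : ∀ x ∈ h.V₂, s x ∈ h.V₂) (hs₂' : ∀ x ∈ h.V₂.nonunits, s x ∈ h.V₂.nonunits)
    (hs₀ : ∀ x ∈ s18vO ↥(s18dVal 𝔸 E) (modularFunctionFieldFullC E M),
      s₀ x ∈ s18vO ↥(s18dVal 𝔸 E) (modularFunctionFieldFullC E M))
    (hs₀red : ∀ (x : ↥(modularFunctionFieldFullC E M))
      (hx : x ∈ s18vO ↥(s18dVal 𝔸 E) (modularFunctionFieldFullC E M)),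
      coeffMap (frobenius (ResidueField ↥(s18dVal 𝔸 E)) q)
          (s18vcRed (modularFunctionFieldFullC E M) ⟨x, hx⟩) =
        s18vcRed (modularFunctionFieldFullC E M) ⟨s₀ x, hs₀ x hx⟩)
    (hs₀ϖ : ∃ u ∈ s18vO ↥(s18dVal 𝔸 E) (modularFunctionFieldFullC E M),
      s₀ (algebraMap ↥(s18dVal 𝔸 E) ↥(modularFunctionFieldFullC E M) ϖ) =
        algebraMap ↥(s18dVal 𝔸 E) ↥(modularFunctionFieldFullC E M) ϖ * u) :
    S35gHyp (ssvmdIncl E M q).toRingHom (ssvmfPhi E M q)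
      (ssvmfW hϖ (modularFunctionFieldFullC E M) (s18v_gen_full M)) h.V₁ h.V₂ s₀ s
      (s35gNorm (ssvmdIncl E M q).toRingHom) (s35gNorm (ssvmfPhi E M q)) q := by
  have hq : q.Prime := Fact.out
  refine
    { α_mem₁ := fun x hx => (ssvmar_gauss₁ 𝔸 E M hA hqM hϖ Ξ G h x hx).1
      α_max₁ := fun x hx => ?_
      φ_mem₂ := fun x hx => ssvmf_phi_mem₂ 𝔸 E M hA hqM hϖ Ξ G h x hx
      φ_max₂ := fun x hx => ?_
      res₁ := fun x hx => ssvmar_res₁ 𝔸 E M Ξ G h x hx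
      res₂ := fun x hx => ssvmar_res₂ 𝔸 E M hA hqM hϖ Ξ G h x hx
      frob₁ := fun x hx => ?_
      frob₂ := fun x hx => ?_
      nrα := fun g hg₁ hg₂ a₁ ha₁ a₂ ha₂ h₁ h₂ => ?_
      nrφ := fun g hg₁ hg₂ b₁ hb₁ b₂ hb₂ h₁ h₂ => ?_
      s_α := hsα
      s_φ := hsφ
      s_mem₁ := hs₁
      s_max₁ := hs₁'
      s_mem₂ := hs₂
      s_max₂ := hs₂'
      s₀_mem := hs₀
      s₀_max := fun x hx => ?_ }
  · -- α_max₁
    obtain ⟨z, hz, hxz⟩ := (s35gc_mem_nonunits₀ 𝔸 E M hϖ x).mp hx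
    have hxO : x ∈ s18vO ↥(s18dVal 𝔸 E) (modularFunctionFieldFullC E M) := by
      rw [hxz]
      exact Subring.mul_mem _ (s18vg_algebraMap_mem _ ϖ) hz
    exact (ssvmar_gauss₁ 𝔸 E M hA hqM hϖ Ξ G h x hxO).2.2.1.mpr ⟨z, hz, hxz⟩
  · -- φ_max₂
    obtain ⟨z, hz, hxz⟩ := (s35gc_mem_nonunits₀ 𝔸 E M hϖ x).mp hx
    have hxO : x ∈ s18vO ↥(s18dVal 𝔸 E) (modularFunctionFieldFullC E M) := by
      rw [hxz]
      exact Subring.mul_mem _ (s18vg_algebraMap_mem _ ϖ) hz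
    exact (ssvmf_phi_nonunit_iff 𝔸 E M hA hqM hϖ Ξ G h x hxO).mpr ⟨z, hz, hxz⟩
  · -- frob₁
    have key := ssvmar_frob₁ 𝔸 E M hA hqM hϖ Ξ G h (s₀ x) x (hs₀ x hx) hx (hs₀red x hx)
    have := ssvma_neg_mem_nonunits h.V₁ key
    rwa [neg_sub] at this
  · -- frob₂
    have key := ssvmf_frob₂ 𝔸 E M hA hqM hϖ Ξ G h (s₀ x) x (hs₀ x hx) hx (hs₀red x hx)
    have := ssvma_neg_mem_nonunits h.V₂ key
    rwa [neg_sub] at this
  · -- nrα
    exact (s35gc_mem_nonunits₀ 𝔸 E M hϖ _).mpr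
      (s35gc_nrα' 𝔸 E M h hA hϖ g hg₁ hg₂ a₁ a₂ ha₁ ha₂ h₁ h₂)
  · -- nrφ
    exact (s35gc_mem_nonunits₀ 𝔸 E M hϖ _).mpr
      (s35gc_nrφ 𝔸 E M h hA hqM hϖ g hg₁ hg₂ b₁ b₂ hb₁ hb₂ h₁ h₂)
  · -- s₀_max
    obtain ⟨z, hz, hxz⟩ := (s35gc_mem_nonunits₀ 𝔸 E M hϖ x).mp hx
    obtain ⟨u, hu, hsϖ⟩ := hs₀ϖ
    refine (s35gc_mem_nonunits₀ 𝔸 E M hϖ _).mpr ⟨u * s₀ z, Subring.mul_mem _ hu (hs₀ z hz), ?_⟩
    rw [hxz, map_mul, hsϖ, mul_assoc]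

end Modular

end Fermat.Agent.S35
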