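import Mathlib
import Fermat.Agent.S35.G1.Abs
import Fermat.Agent.SS.Val.Gauss2

/-!
# S35, leaf (G1') : weak approximation for the two valuation rings of `SsvAmb`

`s35g_wa_of_amb` : in the ambient setting of `SS/Val/Gauss2.lean` (`R[y] = V₁ ∩ V₂`, `𝔐₁ + 𝔐₂ = 1`,
`κ(V_i) = κ(R)[Y]/(f_i)`) every pair of residues `(x₁ mod 𝔪₁, x₂ mod 𝔪₂)` is attained by one element
of `R[y]` : the hypothesis `S35gWA` of `S35gHyp.main`.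
-/

set_option autoImplicit false
set_option linter.unusedSectionVars false
set_option linter.style.haveILetI false

noncomputable section

namespace Fermat.Agent.S35

open Polynomial IsLocalRing Fermat.Agent.SS

variable {F : Type*} [Field F] {R : Subring F} [IsDiscreteValuationRing ↥R]
variable {ϖ : ↥R} {y : F} {Ξ F₁ F₂ G : (↥R)[X]}

/-- an element of `𝔐₁` is a non-unit of `V₁` -/
theorem s35g_nonunits_of_mem_M₁ (h : SsvAmb R ϖ y Ξ F₁ F₂ G) (s : ↥(Algebra.adjoin ↥R {y}))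
    (hs : s ∈ ssvM ϖ (ssvGen R y) F₁) : (s : F) ∈ h.V₁.nonunits := by
  haveI := h.data.isDedekindDomain
  haveI := h.isFractionRing
  rw [h.mem_nonunits_V₁_iff]
  exact (h.data.valuation_lt_one_iff₁ F s).mpr hs

/-- an element of `𝔐₂` is a non-unit of `V₂` -/
theorem s35g_nonunits_of_mem_M₂ (h : SsvAmb R ϖ y Ξ F₁ F₂ G) (s : ↥(Algebra.adjoin ↥R {y}))
    (hs : s ∈ ssvM ϖ (ssvGen R y) F₂) : (s : F) ∈ h.V₂.nonunits :=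
  s35g_nonunits_of_mem_M₁ h.symm s hs

/-- **weak approximation** for `V₁, V₂`, with the approximating element in `R[y] = V₁ ∩ V₂`. -/
theorem s35g_wa_of_amb (h : SsvAmb R ϖ y Ξ F₁ F₂ G) (hF₁ : F₁.Monic) (hF₂ : F₂.Monic)
    {x₁ x₂ : F} (hx₁ : x₁ ∈ h.V₁) (hx₂ : x₂ ∈ h.V₂) :
    ∃ U ∈ Algebra.adjoin ↥R {y}, U - x₁ ∈ h.V₁.nonunits ∧ U - x₂ ∈ h.V₂.nonunits := by
  obtain ⟨g₁, -, hg₁⟩ := h.exists_sub_mem₁ hF₁ hx₁
  obtain ⟨g₂, -, hg₂⟩ := h.exists_sub_mem₂ hF₂ hx₂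
  -- `1 = e₁ + e₂`, `e₁ ∈ 𝔐₁`, `e₂ ∈ 𝔐₂`
  have hsup : ssvM ϖ (ssvGen R y) F₁ ⊔ ssvM ϖ (ssvGen R y) F₂ = ⊤ :=
    Ideal.IsMaximal.coprime_of_ne h.data.isMaximal₁ h.data.isMaximal₂ h.data.M_ne
  obtain ⟨e₁, he₁, e₂, he₂, he⟩ := Submodule.mem_sup.mp
    (hsup ▸ (Submodule.mem_top : (1 : ↥(Algebra.adjoin ↥R {y})) ∈ ⊤))
  set s₁ : ↥(Algebra.adjoin ↥R {y}) := aeval (ssvGen R y) g₁ with hs₁
  set s₂ : ↥(Algebra.adjoin ↥R {y}) := aeval (ssvGen R y) g₂ with hs₂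
  have hc₁ : ((s₁ : ↥(Algebra.adjoin ↥R {y})) : F) = aeval y g₁ := ssv_coe_aeval_gen g₁
  have hc₂ : ((s₂ : ↥(Algebra.adjoin ↥R {y})) : F) = aeval y g₂ := ssv_coe_aeval_gen g₂
  refine ⟨((s₁ * e₂ + s₂ * e₁ : ↥(Algebra.adjoin ↥R {y})) : F), (s₁ * e₂ + s₂ * e₁).2, ?_, ?_⟩
  · -- `U - s₁ = (s₂ - s₁) e₁ ∈ 𝔐₁`
    have h1 : (s₁ * e₂ + s₂ * e₁ - s₁ : ↥(Algebra.adjoin ↥R {y})) ∈ ssvM ϖ (ssvGen R y) F₁ := by
      have : s₁ * e₂ + s₂ * e₁ - s₁ = (s₂ - s₁) * e₁ := by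
        have he' : e₂ = 1 - e₁ := by rw [← he]; ring
        rw [he']; ring
      rw [this]
      exact Ideal.mul_mem_left _ _ he₁
    have h2 := s35g_nonunits_of_mem_M₁ h _ h1
    have h3 : ((s₁ * e₂ + s₂ * e₁ : ↥(Algebra.adjoin ↥R {y})) : F) - x₁ =
        ((s₁ * e₂ + s₂ * e₁ - s₁ : ↥(Algebra.adjoin ↥R {y})) : F) - (x₁ - aeval y g₁) := by
      rw [← hc₁]; push_cast; ring
    rw [h3]
    exact sub_mem h2 hg₁
  · have h1 : (s₁ * e₂ + s₂ * e₁ - s₂ : ↥(Algebra.adjoin ↥R {y})) ∈ ssvM ϖ (ssvGen R y) F₂ := by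
      have : s₁ * e₂ + s₂ * e₁ - s₂ = (s₁ - s₂) * e₂ := by
        have he' : e₁ = 1 - e₂ := by rw [← he]; ring
        rw [he']; ring
      rw [this]
      exact Ideal.mul_mem_left _ _ he₂
    have h2 := s35g_nonunits_of_mem_M₂ h _ h1
    have h3 : ((s₁ * e₂ + s₂ * e₁ : ↥(Algebra.adjoin ↥R {y})) : F) - x₂ =
        ((s₁ * e₂ + s₂ * e₁ - s₂ : ↥(Algebra.adjoin ↥R {y})) : F) - (x₂ - aeval y g₂) := by
      rw [← hc₂]; push_cast; ring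
    rw [h3]
    exact sub_mem h2 hg₂

/-- the hypothesis `S35gWA` of `S35gHyp.main` in the ambient setting -/
theorem s35g_WA_of_amb (h : SsvAmb R ϖ y Ξ F₁ F₂ G) (hF₁ : F₁.Monic) (hF₂ : F₂.Monic) :
    S35gWA h.V₁ h.V₂ := by
  intro x₁ hx₁ x₂ hx₂
  obtain ⟨U, hU, h1, h2⟩ := s35g_wa_of_amb h hF₁ hF₂ hx₁ hx₂
  have hU12 := (h.mem_adjoin_iff U).mp hU
  exact ⟨U, ⟨hU12.1, hx₁, h1⟩, ⟨hU12.2, hx₂, h2⟩⟩

/-- `V₁` is discrete with uniformiser `ϖ` -/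
theorem s35g_disc₁ (h : SsvAmb R ϖ y Ξ F₁ F₂ G) : S35gDisc h.V₁ ((ϖ : ↥R) : F) := by
  haveI := h.data.isDedekindDomain
  haveI := h.isFractionRing
  intro x hx
  have h1 : h.data.v₁.valuation F ((ϖ : ↥R) : F) = WithZero.exp (-1 : ℤ) :=
    h.data.valuation_unif₁ F
  have hvx : h.data.v₁.valuation F x ≠ 0 := (Valuation.ne_zero_iff _).mpr hx
  obtain ⟨m, hm⟩ : ∃ m : ℤ, h.data.v₁.valuation F x = WithZero.exp m :=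
    ⟨_, (WithZero.exp_log hvx).symm⟩
  have key : h.data.v₁.valuation F (x * ((ϖ : ↥R) : F) ^ m) = 1 := by
    rw [map_mul, map_zpow₀, h1, hm, ← WithZero.exp_zsmul, ← WithZero.exp_add, smul_eq_mul,
      mul_neg, mul_one, add_neg_cancel, WithZero.exp_zero]
  refine ⟨m, ?_, ?_⟩
  · rw [h.mem_V₁_iff, key]
  · rw [h.mem_V₁_iff, map_inv₀, key, inv_one]

/-- `V₂` is discrete with uniformiser `ϖ` -/
theorem s35g_disc₂ (h : SsvAmb R ϖ y Ξ F₁ F₂ G) : S35gDisc h.V₂ ((ϖ : ↥R) : F) :=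
  s35g_disc₁ h.symm

/-- elements of `R` lie in `V₁ ∩ V₂` -/
theorem s35g_coe_mem (h : SsvAmb R ϖ y Ξ F₁ F₂ G) (r : ↥R) {x : F} (hx : (r : F) = x) :
    x ∈ h.V₁ ∧ x ∈ h.V₂ := by
  subst hx
  exact (h.mem_adjoin_iff _).mp (Subalgebra.algebraMap_mem _ r)

/-- discreteness, with the uniformiser given up to an equation (for concrete instances) -/
theorem s35g_disc_of_eq (h : SsvAmb R ϖ y Ξ F₁ F₂ G) {x : F} (hx : ((ϖ : ↥R) : F) = x) :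
    S35gDisc h.V₁ x ∧ S35gDisc h.V₂ x := by
  subst hx
  exact ⟨s35g_disc₁ h, s35g_disc₂ h⟩

/-- an automorphism of `F` preserving `V₁` and `V₂` multiplies the uniformiser by a common unit -/
theorem s35g_unif_unit_amb (h : SsvAmb R ϖ y Ξ F₁ F₂ G) (s : F ≃+* F)
    (hs₁ : ∀ x, s x ∈ h.V₁ ↔ x ∈ h.V₁) (hs₂ : ∀ x, s x ∈ h.V₂ ↔ x ∈ h.V₂) {x : F}
    (hx : ((ϖ : ↥R) : F) = x) :
    ∃ c : F, s x = x * c ∧ c ∈ h.V₁ ∧ c⁻¹ ∈ h.V₁ ∧ c ∈ h.V₂ ∧ c⁻¹ ∈ h.V₂ ∧ x ≠ 0 := by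
  subst hx
  have h0 : ((ϖ : ↥R) : F) ≠ 0 := by
    intro h0
    exact h.data.unif_ne_zero (Subtype.ext (by
      have e : ((algebraMap ↥R ↥(Algebra.adjoin ↥R {y}) ϖ : ↥(Algebra.adjoin ↥R {y})) : F) =
        ((ϖ : ↥R) : F) := rfl
      rw [e, h0]; rfl))
  obtain ⟨a1, a2⟩ := s35g_unif_unit h.unif_mem₁ (fun x hx => h.unif_dvd₁ hx) s hs₁
  obtain ⟨b1, b2⟩ := s35g_unif_unit h.unif_mem₂ (fun x hx => h.unif_dvd₂ hx) s hs₂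
  exact ⟨s ((ϖ : ↥R) : F) / ((ϖ : ↥R) : F), by field_simp, a1, a2, b1, b2, h0⟩

end Fermat.Agent.S35
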