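import Mathlib
import Fermat.Agent.S35.G1.ConcB
import Fermat.Agent.S35.G1.WA
import Fermat.Agent.SS.Val.ModGal

/-!
# S35, leaf (G1') / (T-NEW), CONCRETE AND SLOT-FREE : the toric normalisation for a Frobenius lift

Setting of `SS/Val/ModMain.lean` : `q` prime, `𝔸 | q`, `E/ℚ` normal with `A₀ = 𝔸 ∩ E` a DVR, `q ∤ M`,
`F₀ = F_E(M)`, `F = F_E(M q)`, `α = ssvmdIncl E M q`, `φ = ssvmfPhi E M q`, `V₁ = h.V₁`, `V₂ = h.V₂` the two
valuation rings of `F` above the Gauss valuation.  `σ ∈ Gal(ℚ̄/ℚ)` a Frobenius lift at `𝔸`,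
`s₀ = ssdAutRing E M (σ|_E)`, `s = ssdAutRing E (M q) (σ|_E)` the coefficientwise automorphisms.

* `s35gc_hyp_frob` : the instance of `S35gHyp` for `(s₀, s)` - all slots of `s35gc_hyp` filled from
  `SS/Val/ModGal.lean`.
* `s35gc_toric` : **(T-NEW)**.  `f ∈ F` a unit at `V₁` and at `V₂`, `n ≠ 0`, `N_α f = vⁿ`, `N_φ f = v'ⁿ` :
  there is `U ∈ V₁ ∩ V₂` with `s(s f) ≡ f · Uⁿ` modulo `𝔪_{V₁}` and modulo `𝔪_{V₂}`.
* `s35gc_toric'` : the same in quotient form : `g₁ := s(s f) / (f Uⁿ)` has `g₁ - 1 ∈ 𝔪_{V₁} ∩ 𝔪_{V₂}`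
  (`= ϖ P_(ϖ)` by `SsvTwo.dvd_iff`), `U` a unit at both.
-/

set_option autoImplicit false
set_option linter.unusedSectionVars false
set_option linter.unusedVariables false
set_option linter.style.haveILetI false
set_option synthInstance.maxHeartbeats 400000

noncomputable section

namespace Fermat.Agent.S35

open Polynomial ModularCurve AlgebraicCurve IsLocalRing IntermediateField Fermat.Agent.S18
  Fermat.Agent.SS

/-! ### generic facts on `s35gNorm` -/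

section Generic

variable {K F : Type*} [Field K] [Field F]

theorem s35gNorm_mul (ι : K →+* F) (g g' : F) :
    s35gNorm ι (g * g') = s35gNorm ι g * s35gNorm ι g' := by
  unfold s35gNorm
  letI := ι.toAlgebra
  exact map_mul (Algebra.norm K) g g'

theorem s35gNorm_ne_zero (ι : K →+* F) {g : F} (hg : g ≠ 0) : s35gNorm ι g ≠ 0 := by
  unfold s35gNorm
  letI := ι.toAlgebra
  by_cases hfin : Module.Finite K F
  · exact Algebra.norm_ne_zero_iff.mpr hg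
  · rw [Algebra.norm_eq_one_of_not_exists_basis]
    · exact one_ne_zero
    · rintro ⟨t, ⟨b⟩⟩
      exact hfin (Module.Finite.of_basis b)

/-- the norm along `ι` is equivariant for a pair of automorphisms `(s₀, s)` with `s ∘ ι = ι ∘ s₀` -/
theorem s35g_norm_equivariant (ι : K →+* F) (s₀ : K ≃+* K) (s : F ≃+* F)
    (hs : ∀ x, s (ι x) = ι (s₀ x)) (g : F) : s35gNorm ι (s g) = s₀ (s35gNorm ι g) := by
  unfold s35gNorm
  have he : (@algebraMap K F _ _ ι.toAlgebra).comp ((s₀ : K ≃+* K) : K →+* K) =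
      ((s : F ≃+* F) : F →+* F).comp (@algebraMap K F _ _ ι.toAlgebra) := by
    ext x
    exact (hs x).symm
  have := @Algebra.norm_eq_of_equiv_equiv K F K F _ _ _ _ ι.toAlgebra ι.toAlgebra s₀ s he g
  rw [this, RingEquiv.apply_symm_apply]

end Generic

local notation "Qb" => AlgebraicClosure ℚ

variable {q : ℕ} [Fact q.Prime] [NeZero q] (𝔸 : ValuationSubring Qb) (E : IntermediateField ℚ Qb)
  [Normal ℚ E] [IsDiscreteValuationRing ↥(s18dVal 𝔸 E)] [CharZero ↥(s18dVal 𝔸 E)] (M : ℕ)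
  [NeZero M]
variable {ϖ : ↥(s18dVal 𝔸 E)} {Ξ G : (↥(ssvmmR 𝔸 E M q))[X]}
  (h : SsvAmb (ssvmmR 𝔸 E M q) (ssvmgRUnif (ssvmm_le E M q) ϖ) (ssvmmY E M q) Ξ
    (X - C (ssvmmJ 𝔸 E M q ^ q)) (X ^ q - C (ssvmmJ 𝔸 E M q)) G)

/-- the coefficientwise automorphism on a constant of `𝔸 ∩ E` -/
theorem s35gc_aut_const (N : ℕ) [NeZero N] (τ : E ≃ₐ[ℚ] E) (hτ : SsvmglStab 𝔸 E τ)
    (a : ↥(s18dVal 𝔸 E)) :
    ssdAutRing E N τ (algebraMap ↥(s18dVal 𝔸 E) ↥(modularFunctionFieldFullC E N) a) =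
      algebraMap ↥(s18dVal 𝔸 E) ↥(modularFunctionFieldFullC E N) (ssvmglBase 𝔸 E τ hτ a) := by
  apply Subtype.ext
  have h2 := s18v_coe_algebraMap (modularFunctionFieldFullC E N) a
  have h3 := s18v_coe_algebraMap (modularFunctionFieldFullC E N) (ssvmglBase 𝔸 E τ hτ a)
  rw [h3, coe_ssdAutRing_apply, h2, coeffMap_algebraMap]
  rfl

set_option maxHeartbeats 2000000 in
/-- **THE CONCRETE INSTANCE OF `S35gHyp` FOR A FROBENIUS LIFT.** -/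
theorem s35gc_hyp_frob [CharP (ResidueField ↥(s18dVal 𝔸 E)) q] (hA : 𝔸.LiesOverPrime q)
    (hqM : ¬ q ∣ M) (hϖ : Irreducible ϖ) (σ : Qb ≃ₐ[ℚ] Qb) (hσ : 𝔸.IsFrobeniusAt σ q) :
    S35gHyp (ssvmdIncl E M q).toRingHom (ssvmfPhi E M q)
      (ssvmfW hϖ (modularFunctionFieldFullC E M) (s18v_gen_full M)) h.V₁ h.V₂
      (ssdAutRing E M (σ.restrictNormal E)).toRingHom
      (ssdAutRing E (M * q) (σ.restrictNormal E)).toRingHom
      (s35gNorm (ssvmdIncl E M q).toRingHom) (s35gNorm (ssvmfPhi E M q)) q := by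
  have hτ : SsvmglStab 𝔸 E (σ.restrictNormal E) :=
    ssvmgl_stab_of_dec 𝔸 E σ hσ.mem_decompositionSubgroup
  obtain ⟨v1, v2, v1', v2'⟩ := ssvmgl_smul_V 𝔸 E M hA hqM hϖ Ξ G h (σ.restrictNormal E) hτ
  refine s35gc_hyp 𝔸 E M h hA hqM hϖ _ _ ?_ ?_ ?_ ?_ ?_ ?_ ?_ ?_ ?_
  · intro x
    exact ssvmgl_aut_incl E M q (σ.restrictNormal E) x
  · intro x
    exact ssvmgl_aut_phi E M q (σ.restrictNormal E) x
  · intro x hx
    exact (v1 x).mpr hx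
  · intro x hx
    exact (v1' x).mpr hx
  · intro x hx
    exact (v2 x).mpr hx
  · intro x hx
    exact (v2' x).mpr hx
  · intro x hx
    exact (ssvmgl_aut_mem 𝔸 E M (σ.restrictNormal E) hτ x hx).1
  · intro x hx
    obtain ⟨h', hr⟩ := ssvmgl_frob_red 𝔸 E M σ hσ x hx
    exact hr
  · obtain ⟨b, hb⟩ := ssvmgl_frob_base 𝔸 E σ hσ hϖ ϖ
    have hq : q.Prime := Fact.out
    refine ⟨algebraMap ↥(s18dVal 𝔸 E) ↥(modularFunctionFieldFullC E M) (ϖ ^ (q - 1) + b),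
      s18vg_algebraMap_mem (F := modularFunctionFieldFullC E M) _, ?_⟩
    show ssdAutRing E M (σ.restrictNormal E) _ = _
    rw [s35gc_aut_const 𝔸 E M (σ.restrictNormal E) hτ ϖ, hb, ← map_mul]
    congr 1
    obtain ⟨k, hk⟩ : ∃ k, q = k + 1 := Nat.exists_eq_succ_of_ne_zero hq.ne_zero
    rw [hk, Nat.add_sub_cancel]
    ring

/-- **(T-NEW), concrete and slot-free** : for a Frobenius lift `σ` at `𝔸 | q`, `s` the coefficientwise
action of `σ|_E` on `F_E(M q)` : if `f` is a unit at `V₁` and at `V₂` whose norms along `α` and along `φ`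
are `n`-th powers (`n ≠ 0`), then `s(s f) ≡ f · Uⁿ` modulo `𝔪_{V₁}` and modulo `𝔪_{V₂}` for some
`U ∈ V₁ ∩ V₂`. -/
theorem s35gc_toric [CharP (ResidueField ↥(s18dVal 𝔸 E)) q] (hA : 𝔸.LiesOverPrime q)
    (hqM : ¬ q ∣ M) (hϖ : Irreducible ϖ) (σ : Qb ≃ₐ[ℚ] Qb) (hσ : 𝔸.IsFrobeniusAt σ q)
    {f : ↥(modularFunctionFieldFullC E (M * q))} (hf₁ : f ∈ h.V₁) (hf₁' : f⁻¹ ∈ h.V₁)
    (hf₂ : f ∈ h.V₂) (hf₂' : f⁻¹ ∈ h.V₂) (hf0 : f ≠ 0) {n : ℕ} (hn : n ≠ 0)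
    {v v' : ↥(modularFunctionFieldFullC E M)}
    (hα : s35gNorm (ssvmdIncl E M q).toRingHom f = v ^ n)
    (hφ : s35gNorm (ssvmfPhi E M q) f = v' ^ n) :
    ∃ U : ↥(modularFunctionFieldFullC E (M * q)), U ∈ h.V₁ ∧ U ∈ h.V₂ ∧
      S35gCong h.V₁ (ssdAutRing E (M * q) (σ.restrictNormal E)
        (ssdAutRing E (M * q) (σ.restrictNormal E) f)) (f * U ^ n) ∧
      S35gCong h.V₂ (ssdAutRing E (M * q) (σ.restrictNormal E)
        (ssdAutRing E (M * q) (σ.restrictNormal E) f)) (f * U ^ n) := by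
  have hq : q.Prime := Fact.out
  have H := s35gc_hyp_frob 𝔸 E M h hA hqM hϖ σ hσ
  have wa : S35gWA h.V₁ h.V₂ :=
    s35g_WA_of_amb h (monic_X_sub_C _) (monic_X_pow_sub_C _ hq.ne_zero)
  exact H.main'' wa hf₁ hf₁' hf₂ hf₂' hf0 hn hα hφ

/-- **(T-NEW), concrete, slot-free, QUOTIENT SHAPE** (what `ST/Top/Core` feeds into `st_toric`) :
`g₁ := s(s f) / (f Uⁿ)` satisfies `g₁ - 1 ∈ 𝔪_{V₁} ∩ 𝔪_{V₂}` (`= ϖ P_(ϖ)`, `SsvTwo.dvd_iff`). -/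
theorem s35gc_toric_quot [CharP (ResidueField ↥(s18dVal 𝔸 E)) q] (hA : 𝔸.LiesOverPrime q)
    (hqM : ¬ q ∣ M) (hϖ : Irreducible ϖ) (σ : Qb ≃ₐ[ℚ] Qb) (hσ : 𝔸.IsFrobeniusAt σ q)
    {f : ↥(modularFunctionFieldFullC E (M * q))} (hf₁ : f ∈ h.V₁) (hf₁' : f⁻¹ ∈ h.V₁)
    (hf₂ : f ∈ h.V₂) (hf₂' : f⁻¹ ∈ h.V₂) (hf0 : f ≠ 0) {n : ℕ} (hn : n ≠ 0)
    {v v' : ↥(modularFunctionFieldFullC E M)}
    (hα : s35gNorm (ssvmdIncl E M q).toRingHom f = v ^ n)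
    (hφ : s35gNorm (ssvmfPhi E M q) f = v' ^ n) :
    ∃ U : ↥(modularFunctionFieldFullC E (M * q)), U ≠ 0 ∧
      ssdAutRing E (M * q) (σ.restrictNormal E)
        (ssdAutRing E (M * q) (σ.restrictNormal E) f) / (f * U ^ n) - 1 ∈ h.V₁.nonunits ∧
      ssdAutRing E (M * q) (σ.restrictNormal E)
        (ssdAutRing E (M * q) (σ.restrictNormal E) f) / (f * U ^ n) - 1 ∈ h.V₂.nonunits := by
  have hq : q.Prime := Fact.out
  have H := s35gc_hyp_frob 𝔸 E M h hA hqM hϖ σ hσ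
  have wa : S35gWA h.V₁ h.V₂ :=
    s35g_WA_of_amb h (monic_X_sub_C _) (monic_X_pow_sub_C _ hq.ne_zero)
  exact H.main_quot wa hf₁ hf₁' hf₂ hf₂' hf0 hn hα hφ

/-- constants of `𝔸 ∩ E` lie in `V₁ ∩ V₂` -/
theorem s35gc_const_mem (c : ↥(s18dVal 𝔸 E)) :
    algebraMap ↥(s18dVal 𝔸 E) ↥(modularFunctionFieldFullC E (M * q)) c ∈ h.V₁ ∧
      algebraMap ↥(s18dVal 𝔸 E) ↥(modularFunctionFieldFullC E (M * q)) c ∈ h.V₂ :=
  s35g_coe_mem h (ssvmgRUnif (ssvmm_le E M q) c) (ssvmgRUnif_coe (ssvmm_le E M q) c)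

set_option maxHeartbeats 1000000 in
/-- **(T-NEW), concrete, slot-free, WITH THE FIRST `(σ - 1)` BUILT IN** : for ANY `f ≠ 0` of `F_E(M q)` whose
norms along `α` and along `φ` are `n`-th powers (`n ≠ 0`), `f₁ := s(s f) / f` is a unit at `V₁` and at `V₂`,
and there is `U ≠ 0` such that `g₁ := s(s f₁) / (f₁ Uⁿ)` satisfies `g₁ - 1 ∈ 𝔪_{V₁} ∩ 𝔪_{V₂}`. -/
theorem s35gc_toric_dd [CharP (ResidueField ↥(s18dVal 𝔸 E)) q] (hA : 𝔸.LiesOverPrime q)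
    (hqM : ¬ q ∣ M) (hϖ : Irreducible ϖ) (σ : Qb ≃ₐ[ℚ] Qb) (hσ : 𝔸.IsFrobeniusAt σ q)
    {f f₁ : ↥(modularFunctionFieldFullC E (M * q))} (hf0 : f ≠ 0)
    (hf₁ : f₁ = ssdAutRing E (M * q) (σ.restrictNormal E)
      (ssdAutRing E (M * q) (σ.restrictNormal E) f) / f) {n : ℕ} (hn : n ≠ 0)
    {v v' : ↥(modularFunctionFieldFullC E M)}
    (hα : s35gNorm (ssvmdIncl E M q).toRingHom f = v ^ n)
    (hφ : s35gNorm (ssvmfPhi E M q) f = v' ^ n) :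
    (f₁ ∈ h.V₁ ∧ f₁⁻¹ ∈ h.V₁ ∧ f₁ ∈ h.V₂ ∧ f₁⁻¹ ∈ h.V₂) ∧
    ∃ U : ↥(modularFunctionFieldFullC E (M * q)), U ≠ 0 ∧
      ssdAutRing E (M * q) (σ.restrictNormal E)
        (ssdAutRing E (M * q) (σ.restrictNormal E) f₁) / (f₁ * U ^ n) - 1 ∈ h.V₁.nonunits ∧
      ssdAutRing E (M * q) (σ.restrictNormal E)
        (ssdAutRing E (M * q) (σ.restrictNormal E) f₁) / (f₁ * U ^ n) - 1 ∈ h.V₂.nonunits := by
  have hq : q.Prime := Fact.out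
  have H := s35gc_hyp_frob 𝔸 E M h hA hqM hϖ σ hσ
  have wa : S35gWA h.V₁ h.V₂ :=
    s35g_WA_of_amb h (monic_X_sub_C _) (monic_X_pow_sub_C _ hq.ne_zero)
  have hτ : SsvmglStab 𝔸 E (σ.restrictNormal E) :=
    ssvmgl_stab_of_dec 𝔸 E σ hσ.mem_decompositionSubgroup
  obtain ⟨c, hsϖ, hc₁, hci₁, hc₂, hci₂, hϖF0⟩ := s35g_unif_unit_amb h
    (ssdAutRing E (M * q) (σ.restrictNormal E))
    (ssvmgl_aut_V₁ 𝔸 E M hA hϖ Ξ G h (σ.restrictNormal E) hτ)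
    (ssvmgl_aut_V₂ 𝔸 E M hA hqM hϖ Ξ G h (σ.restrictNormal E) hτ)
    (ssvmgRUnif_coe (ssvmm_le E M q) ϖ)
  have hd := s35g_disc_of_eq h (ssvmgRUnif_coe (ssvmm_le E M q) ϖ)
  subst hf₁
  exact H.main_dd wa hd.1 hd.2 hϖF0 hc₁ hci₁ hc₂ hci₂ hsϖ
    (fun g => s35g_norm_equivariant _ (ssdAutRing E M (σ.restrictNormal E))
      (ssdAutRing E (M * q) (σ.restrictNormal E))
      (fun x => ssvmgl_aut_incl E M q (σ.restrictNormal E) x) g)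
    (fun g => s35g_norm_equivariant _ (ssdAutRing E M (σ.restrictNormal E))
      (ssdAutRing E (M * q) (σ.restrictNormal E))
      (fun x => ssvmgl_aut_phi E M q (σ.restrictNormal E) x) g)
    (s35gNorm_mul _) (s35gNorm_mul _) (fun g hg => s35gNorm_ne_zero _ hg)
    (fun g hg => s35gNorm_ne_zero _ hg) hf0 hn hα hφ

end Fermat.Agent.S35
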